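/-
LSb / Frame / Approx  (helper2)

Two Gauss data `D1`, `D2` on the same field `F ⊇ L` (both extending the rank one valuation ring `A`
of `L`, value groups = value group of `A`) with `D1.O ≠ D2.O`.  Weak approximation in the form
needed for the sup-norm frames: every `x ∈ O₁` has a companion `x' ∈ O₁ ∩ O₂` with
`red₁ x' = red₁ x`, `red₂ x' = 0`.  In particular `(red₁, red₂) : O₁ ∩ O₂ → Fk₁ × Fk₂` is onto.
-/
import Fermat.Agent.S18lib.Weak.Lemmas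

set_option autoImplicit false

noncomputable section

namespace Fermat.Agent.LSb.Frame

open Fermat.Agent.S18lib

variable {L : Type*} [Field L] {A : ValuationSubring L}
variable {F : Type*} [Field F] [Algebra L F]
variable {Fk1 : Type*} [Field Fk1] [Algebra (IsLocalRing.ResidueField A) Fk1]
variable {Fk2 : Type*} [Field Fk2] [Algebra (IsLocalRing.ResidueField A) Fk2]

/-- the elementary form of "`A` has rank one" (as in `S18lib.rankOne_of_liesOverPrime`) -/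
def RankOneDvd (A : ValuationSubring L) : Prop :=
  ∀ c : A, c ∈ IsLocalRing.maximalIdeal A → ∀ d : A, d ≠ 0 → ∃ n : ℕ, ¬ c ^ n ∣ d

section General

variable (D : GaussDatum A F Fk1)

/-- `x ∈ 𝔪_O` : in `O` with zero reduction -/
def InMax (x : F) : Prop := x ∈ D.O ∧ D.redF x = 0

variable {D}

theorem InMax.mul_mem {x y : F} (hx : InMax D x) (hy : y ∈ D.O) : InMax D (x * y) :=
  ⟨D.O.mul_mem _ _ hx.1 hy, by rw [D.redF_mul hx.1 hy, hx.2, zero_mul]⟩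

theorem InMax.mem_mul {x y : F} (hx : x ∈ D.O) (hy : InMax D y) : InMax D (x * y) :=
  ⟨D.O.mul_mem _ _ hx hy.1, by rw [D.redF_mul hx hy.1, hy.2, mul_zero]⟩

theorem InMax.pow {x : F} (hx : InMax D x) {n : ℕ} (hn : n ≠ 0) : InMax D (x ^ n) :=
  ⟨D.O.pow_mem hx.1 n, by rw [D.redF_pow hx.1, hx.2, zero_pow hn]⟩

/-- `x ∉ O ⇒ x⁻¹ ∈ 𝔪_O` -/
theorem inMax_inv_of_not_mem {x : F} (hx : x ∉ D.O) : InMax D x⁻¹ := by
  have hxi : x⁻¹ ∈ D.O := (D.O.mem_or_inv_mem x).resolve_left hx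
  refine ⟨hxi, ?_⟩
  by_contra hne
  have := D.inv_mem_of_redF_ne_zero hne
  rw [inv_inv] at this
  exact hx this

/-- `1 + 𝔪_O ⊆ O^×`, with reduction `1` -/
theorem one_add_inMax {x : F} (hx : InMax D x) :
    (1 + x)⁻¹ ∈ D.O ∧ D.redF (1 + x)⁻¹ = 1 := by
  have h1 : D.redF (1 + x) = 1 := by
    rw [D.redF_add D.O.one_mem hx.1, hx.2, add_zero, D.redF_one]
  have hne : D.redF (1 + x) ≠ 0 := by rw [h1]; exact one_ne_zero
  exact ⟨D.inv_mem_of_redF_ne_zero hne, by rw [D.redF_inv hne, h1, inv_one]⟩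

/-- a constant in `𝔪_O` lies in `𝔪_A` -/
theorem mem_maximalIdeal_of_inMax {c : L} (hc : InMax D (algebraMap L F c)) :
    ∃ h : c ∈ A, (⟨c, h⟩ : A) ∈ IsLocalRing.maximalIdeal A := by
  have hcA : c ∈ A := (D.algebraMap_mem_iff c).1 hc.1
  exact ⟨hcA, (D.redF_algebraMap_eq_zero_iff ⟨c, hcA⟩).1 hc.2⟩

theorem inMax_algebraMap {a : A} (ha : a ∈ IsLocalRing.maximalIdeal A) :
    InMax D (algebraMap L F (a : L)) :=
  ⟨D.algebraMap_mem a, (D.redF_algebraMap_eq_zero_iff a).2 ha⟩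

/-- every function becomes integral after multiplication by a nonzero element of `A` -/
theorem exists_smul_mem (D : GaussDatum A F Fk1) (u : F) :
    ∃ c : A, c ≠ 0 ∧ algebraMap L F (c : L) * u ∈ D.O := by
  rcases eq_or_ne u 0 with rfl | hu
  · exact ⟨1, one_ne_zero, by rw [mul_zero]; exact D.O.zero_mem⟩
  obtain ⟨c, hc, hne⟩ := D.exists_const_mul_redF_ne_zero hu
  rcases A.mem_or_inv_mem c with h | h
  · refine ⟨⟨c, h⟩, ?_, D.mem_of_redF_ne_zero hne⟩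
    intro h0
    exact hc (congrArg Subtype.val h0)
  · refine ⟨1, one_ne_zero, ?_⟩
    have h1 := D.smul_mem ⟨c⁻¹, h⟩ (D.mem_of_redF_ne_zero hne)
    have hcF : algebraMap L F c ≠ 0 := (map_ne_zero _).2 hc
    have : algebraMap L F ((⟨c⁻¹, h⟩ : A) : L) * (algebraMap L F c * u) = u := by
      show algebraMap L F c⁻¹ * (algebraMap L F c * u) = u
      rw [map_inv₀, ← mul_assoc, inv_mul_cancel₀ hcF, one_mul]
    rw [this] at h1
    show algebraMap L F ((1 : A) : L) * u ∈ D.O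
    simpa using h1

/-- a nonzero element of `𝔪_O` is `(element of 𝔪_A) * unit` -/
theorem exists_eq_mul_of_inMax {x : F} (hx : InMax D x) (hx0 : x ≠ 0) :
    ∃ (a : A) (y : F), a ∈ IsLocalRing.maximalIdeal A ∧ a ≠ 0 ∧ y ∈ D.O ∧
      x = algebraMap L F (a : L) * y := by
  obtain ⟨a, y, ha, hy, hxy⟩ := D.exists_eq_mul_of_redF_eq_zero hx.1 hx0 hx.2
  refine ⟨a, y, ha, ?_, D.mem_of_redF_ne_zero hy, hxy⟩
  rintro rfl
  apply hx0
  rw [hxy]
  simp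

/-- rank one: powers of an element of `𝔪_O` eventually kill any given denominator -/
theorem exists_pow_mul_inMax (hA : RankOneDvd A) {z : F} (hz : InMax D z) (x : F) :
    ∃ N : ℕ, N ≠ 0 ∧ InMax D (z ^ N * x) := by
  rcases eq_or_ne z 0 with rfl | hz0
  · exact ⟨1, one_ne_zero, by simpa using ⟨D.O.zero_mem, D.redF_zero⟩⟩
  obtain ⟨a, y, ha, ha0, hy, hzy⟩ := exists_eq_mul_of_inMax hz hz0
  obtain ⟨d, hd0, hdx⟩ := exists_smul_mem D x
  -- `a^n ∤ d` for some `n`, hence `a^n / d ∈ A`, and `a^(n+1)/d ∈ 𝔪_A`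
  obtain ⟨n, hn⟩ := hA a ha d hd0
  have hdL : (d : L) ≠ 0 := fun h => hd0 (Subtype.ext h)
  have haL : (a : L) ≠ 0 := fun h => ha0 (Subtype.ext h)
  have hquot : (a : L) ^ n / (d : L) ∈ A := by
    rcases A.mem_or_inv_mem ((a : L) ^ n / (d : L)) with h | h
    · exact h
    · exfalso
      apply hn
      refine ⟨⟨((a : L) ^ n / (d : L))⁻¹, h⟩, Subtype.ext ?_⟩
      show (d : L) = (a : L) ^ n * ((a : L) ^ n / (d : L))⁻¹
      rw [inv_div, mul_div_assoc', mul_comm, mul_div_assoc, div_self (pow_ne_zero _ haL), mul_one]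
  refine ⟨n + 1, Nat.succ_ne_zero n, ?_⟩
  -- z^(n+1) x = a * (a^n/d) * y^(n+1) * (d x)
  have hkey : z ^ (n + 1) * x = algebraMap L F (a : L) *
      (algebraMap L F ((⟨(a : L) ^ n / (d : L), hquot⟩ : A) : L) *
        (y ^ (n + 1) * (algebraMap L F (d : L) * x))) := by
    have hdF : algebraMap L F (d : L) ≠ 0 := (map_ne_zero _).2 hdL
    rw [hzy, mul_pow]
    show (algebraMap L F (a : L)) ^ (n + 1) * y ^ (n + 1) * x = algebraMap L F (a : L) *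
      (algebraMap L F ((a : L) ^ n / (d : L)) * (y ^ (n + 1) * (algebraMap L F (d : L) * x)))
    rw [map_div₀, map_pow]
    field_simp
    ring
  rw [hkey]
  exact (inMax_algebraMap ha).mul_mem
    (D.smul_mem _ (D.O.mul_mem _ _ (D.O.pow_mem hy _) hdx))

end General

section Pair

variable (D1 : GaussDatum A F Fk1) (D2 : GaussDatum A F Fk2)

/-- two Gauss valuation rings over the same `A` are incomparable or equal -/
theorem le_of_le (h : D1.O ≤ D2.O) : D2.O ≤ D1.O := by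
  intro x hx
  rcases eq_or_ne x 0 with rfl | hx0
  · exact D1.O.zero_mem
  obtain ⟨c, hc, u, hu⟩ := D1.exists_const_mul_isUnit x hx0
  -- c⁻¹ = x * u⁻¹ ∈ O₂ ∩ L = A
  have hcF : algebraMap L F c ≠ 0 := (map_ne_zero _).2 hc
  have huinv : (((u⁻¹ : D1.Oˣ) : D1.O) : F) ∈ D2.O := h ((u⁻¹ : D1.Oˣ) : D1.O).2
  have hmul : ((u : D1.O) : F) * (((u⁻¹ : D1.Oˣ) : D1.O) : F) = 1 := by
    rw [← D1.O.coe_mul, Units.mul_inv]; rfl
  have hcinv : algebraMap L F c⁻¹ = x * (((u⁻¹ : D1.Oˣ) : D1.O) : F) := by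
    rw [map_inv₀, inv_eq_iff_eq_inv, mul_inv_rev]
    have : ((((u⁻¹ : D1.Oˣ) : D1.O) : F))⁻¹ = ((u : D1.O) : F) :=
      (eq_inv_of_mul_eq_one_left hmul).symm
    rw [this, ← hu, mul_assoc, mul_inv_cancel₀ hx0, mul_one]
  have hcA : c⁻¹ ∈ A := by
    rw [← D2.algebraMap_mem_iff, hcinv]
    exact D2.O.mul_mem _ _ hx huinv
  have : x = algebraMap L F c⁻¹ * ((u : D1.O) : F) := by
    rw [← hu, map_inv₀, ← mul_assoc, inv_mul_cancel₀ hcF, one_mul]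
  rw [this]
  exact D1.O.mul_mem _ _ ((D1.algebraMap_mem_iff _).2 hcA) (u : D1.O).2

variable {D1 D2}

/-- a separating element: `z ∈ 𝔪₁`, `z⁻¹ ∈ 𝔪₂` -/
theorem exists_separating (hne : D1.O ≠ D2.O) :
    ∃ z : F, z ≠ 0 ∧ InMax D1 z ∧ InMax D2 z⁻¹ := by
  have h12 : ¬ D1.O ≤ D2.O := fun h => hne (le_antisymm h (le_of_le D1 D2 h))
  have h21 : ¬ D2.O ≤ D1.O := fun h => hne (le_antisymm (le_of_le D2 D1 h) h)
  obtain ⟨x, hx1, hx2⟩ := SetLike.not_le_iff_exists.1 h12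
  obtain ⟨y, hy2, hy1⟩ := SetLike.not_le_iff_exists.1 h21
  have hx0 : x ≠ 0 := by rintro rfl; exact hx2 D2.O.zero_mem
  have hy0 : y ≠ 0 := by rintro rfl; exact hy1 D1.O.zero_mem
  refine ⟨x * y⁻¹, mul_ne_zero hx0 (inv_ne_zero hy0), ?_, ?_⟩
  · exact InMax.mem_mul hx1 (inMax_inv_of_not_mem hy1)
  · rw [mul_inv_rev, inv_inv]
    exact InMax.mem_mul hy2 (inMax_inv_of_not_mem hx2)

/-- **Approximation.**  Every `x ∈ O₁` has a companion in `O₁ ∩ 𝔪₂` with the same `red₁`. -/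
theorem exists_lift_left (hA : RankOneDvd A) (hne : D1.O ≠ D2.O) {x : F} (hx : x ∈ D1.O) :
    ∃ x' : F, x' ∈ D1.O ∧ x' ∈ D2.O ∧ D1.redF x' = D1.redF x ∧ D2.redF x' = 0 := by
  obtain ⟨z, hz0, hz1, hz2⟩ := exists_separating hne
  obtain ⟨N, hN, hNx⟩ := exists_pow_mul_inMax hA hz2 x
  -- e = (1 + z^N)⁻¹ = z⁻ᴺ (1 + z⁻ᴺ)⁻¹
  have h1 := one_add_inMax (hz1.pow hN)
  have h2 := one_add_inMax (hz2.pow hN)
  have hzN : z ^ N ≠ 0 := pow_ne_zero _ hz0
  have he : (1 + z ^ N)⁻¹ = z⁻¹ ^ N * (1 + z⁻¹ ^ N)⁻¹ := by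
    rw [inv_pow, ← mul_inv]
    congr 1
    rw [mul_add, mul_one, mul_inv_cancel₀ hzN, add_comm]
  refine ⟨(1 + z ^ N)⁻¹ * x, D1.O.mul_mem _ _ h1.1 hx, ?_, ?_, ?_⟩
  · rw [he, mul_right_comm]
    exact (InMax.mul_mem hNx h2.1).1
  · rw [D1.redF_mul h1.1 hx, h1.2, one_mul]
  · rw [he, mul_right_comm]
    exact (InMax.mul_mem hNx h2.1).2

theorem exists_lift_right (hA : RankOneDvd A) (hne : D1.O ≠ D2.O) {x : F} (hx : x ∈ D2.O) :
    ∃ x' : F, x' ∈ D1.O ∧ x' ∈ D2.O ∧ D1.redF x' = 0 ∧ D2.redF x' = D2.redF x := by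
  obtain ⟨x', h2, h1, h3, h4⟩ := exists_lift_left (D1 := D2) (D2 := D1) hA hne.symm hx
  exact ⟨x', h1, h2, h4, h3⟩

/-- surjectivity of `(red₁, red₂)` on `O₁ ∩ O₂` -/
theorem exists_lift_pair (hA : RankOneDvd A) (hne : D1.O ≠ D2.O) (η1 : Fk1) (η2 : Fk2) :
    ∃ x : F, x ∈ D1.O ∧ x ∈ D2.O ∧ D1.redF x = η1 ∧ D2.redF x = η2 := by
  obtain ⟨y1, hy1⟩ := D1.red_surjective η1
  obtain ⟨y2, hy2⟩ := D2.red_surjective η2
  obtain ⟨x1, h11, h12, h13, h14⟩ := exists_lift_left hA hne y1.2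
  obtain ⟨x2, h21, h22, h23, h24⟩ := exists_lift_right hA hne y2.2
  refine ⟨x1 + x2, D1.O.add_mem _ _ h11 h21, D2.O.add_mem _ _ h12 h22, ?_, ?_⟩
  · rw [D1.redF_add h11 h21, h13, h23, add_zero, D1.redF_of_mem y1.2]; exact hy1
  · rw [D2.redF_add h12 h22, h14, h24, zero_add, D2.redF_of_mem y2.2]; exact hy2

end Pair

end Fermat.Agent.LSb.Frame
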