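/-
LSb / Frame / Sup  (helper2)

The SUP-NORM of two Gauss data `D1`, `D2` on the same field `F`: unit ball `O₁ ∩ O₂`, reduction
`redS = (red₁, red₂) : O₁ ∩ O₂ → Fk₁ × Fk₂`.  Orthonormal families for the sup-norm
(`IsOrthonormalS`): members of `O₁ ∩ O₂` whose reductions are `k`-linearly independent in the
PRODUCT `Fk₁ × Fk₂`.  Same API as `S18lib.GaussDatum.IsOrthonormal`:
`sum_mem_iff`, `redS_sum`, `linearIndependent`, `exists_coeff_of_mem_span`,
and `exists_orthonormalS_of_le_span` (subspaces of the span of an orthonormal family).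
-/
import Fermat.Agent.LSb.Frame.Approx
import Fermat.Agent.S18lib.Frame.Echelon
import Fermat.Agent.S18lib.Frame.Saturated

set_option autoImplicit false

noncomputable section

namespace Fermat.Agent.LSb.Frame

open Fermat.Agent.S18lib Module

variable {L : Type*} [Field L] {A : ValuationSubring L}
variable {F : Type*} [Field F] [Algebra L F]
variable {Fk1 : Type*} [Field Fk1] [Algebra (IsLocalRing.ResidueField A) Fk1]
variable {Fk2 : Type*} [Field Fk2] [Algebra (IsLocalRing.ResidueField A) Fk2]

local notation "k" => IsLocalRing.ResidueField A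

variable (D1 : GaussDatum A F Fk1) (D2 : GaussDatum A F Fk2)

/-- the unit ball of the sup-norm -/
def supO : Subring F := D1.O.toSubring ⊓ D2.O.toSubring

/-- the reduction of the sup-norm ball, total version (only meaningful on `supO`) -/
def redS (y : F) : Fk1 × Fk2 := (D1.redF y, D2.redF y)

variable {D1 D2}

theorem mem_supO {y : F} : y ∈ supO D1 D2 ↔ y ∈ D1.O ∧ y ∈ D2.O := by
  rw [supO, Subring.mem_inf]; rfl

@[simp] theorem redS_fst (y : F) : (redS D1 D2 y).1 = D1.redF y := rfl

@[simp] theorem redS_snd (y : F) : (redS D1 D2 y).2 = D2.redF y := rfl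

@[simp] theorem redS_zero : redS D1 D2 0 = 0 := by
  ext <;> simp

@[simp] theorem redS_one : redS D1 D2 1 = 1 := by
  ext <;> simp

theorem redS_add {x y : F} (hx : x ∈ supO D1 D2) (hy : y ∈ supO D1 D2) :
    redS D1 D2 (x + y) = redS D1 D2 x + redS D1 D2 y := by
  rw [mem_supO] at hx hy
  ext
  · exact D1.redF_add hx.1 hy.1
  · exact D2.redF_add hx.2 hy.2

theorem redS_mul {x y : F} (hx : x ∈ supO D1 D2) (hy : y ∈ supO D1 D2) :
    redS D1 D2 (x * y) = redS D1 D2 x * redS D1 D2 y := by
  rw [mem_supO] at hx hy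
  ext
  · exact D1.redF_mul hx.1 hy.1
  · exact D2.redF_mul hx.2 hy.2

theorem redS_pow {x : F} (hx : x ∈ supO D1 D2) (n : ℕ) :
    redS D1 D2 (x ^ n) = redS D1 D2 x ^ n := by
  rw [mem_supO] at hx
  ext
  · exact D1.redF_pow hx.1 n
  · exact D2.redF_pow hx.2 n

theorem redS_sum {ι : Type*} (s : Finset ι) (f : ι → F) (hf : ∀ i ∈ s, f i ∈ supO D1 D2) :
    redS D1 D2 (∑ i ∈ s, f i) = ∑ i ∈ s, redS D1 D2 (f i) := by
  ext
  · rw [redS_fst, Prod.fst_sum, D1.redF_sum s f fun i hi => (mem_supO.1 (hf i hi)).1]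
    rfl
  · rw [redS_snd, Prod.snd_sum, D2.redF_sum s f fun i hi => (mem_supO.1 (hf i hi)).2]
    rfl

theorem smul_mem_supO {x : F} (a : A) (hx : x ∈ supO D1 D2) :
    algebraMap L F (a : L) * x ∈ supO D1 D2 := by
  rw [mem_supO] at hx ⊢
  exact ⟨D1.smul_mem a hx.1, D2.smul_mem a hx.2⟩

theorem redS_smul {x : F} (a : A) (hx : x ∈ supO D1 D2) :
    redS D1 D2 (algebraMap L F (a : L) * x) = IsLocalRing.residue A a • redS D1 D2 x := by
  rw [mem_supO] at hx
  ext
  · exact D1.redF_smul a hx.1
  · exact D2.redF_smul a hx.2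

/-- if `c • y` is in the ball and `y` has nonzero reduction, then `c ∈ A` -/
theorem mem_of_smul_mem_supO {c : L} {y : F} (hy : y ∈ supO D1 D2) (hne : redS D1 D2 y ≠ 0)
    (hcy : algebraMap L F c * y ∈ supO D1 D2) : c ∈ A := by
  rw [mem_supO] at hy hcy
  have hy0 : y ≠ 0 := by
    rintro rfl
    exact hne redS_zero
  have key : D1.redF y ≠ 0 ∨ D2.redF y ≠ 0 := by
    by_contra h
    push Not at h
    exact hne (Prod.ext h.1 h.2)
  rcases key with h | h
  · have hyi := D1.inv_mem_of_redF_ne_zero h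
    have := D1.O.mul_mem _ _ hcy.1 hyi
    rw [mul_assoc, mul_inv_cancel₀ hy0, mul_one] at this
    exact (D1.algebraMap_mem_iff _).1 this
  · have hyi := D2.inv_mem_of_redF_ne_zero h
    have := D2.O.mul_mem _ _ hcy.2 hyi
    rw [mul_assoc, mul_inv_cancel₀ hy0, mul_one] at this
    exact (D2.algebraMap_mem_iff _).1 this

variable (D1 D2)

/-- A family in `F` is *orthonormal for the sup-norm* if it lies in `O₁ ∩ O₂` and its reductions
in `Fk₁ × Fk₂` are `k`-linearly independent. -/
def IsOrthonormalS {ι : Type*} (b : ι → F) : Prop :=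
  (∀ i, b i ∈ supO D1 D2) ∧ LinearIndependent k (fun i => redS D1 D2 (b i))

/-- every finite dimensional `L`-subspace of `F` has a basis which is orthonormal for the
sup-norm. -/
def HasOrthonormalBasesS : Prop :=
  ∀ (W : Submodule L F), FiniteDimensional L W →
    ∃ b : Fin (Module.finrank L W) → F, (∀ i, b i ∈ W) ∧ IsOrthonormalS D1 D2 b

variable {D1 D2}
variable {ι : Type*} [Fintype ι] {b : ι → F}

/-- an `A`-combination of an orthonormal family lies in the ball -/
theorem IsOrthonormalS.sum_mem (hb : IsOrthonormalS D1 D2 b) (a : ι → A) :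
    ∑ i, algebraMap L F (a i : L) * b i ∈ supO D1 D2 :=
  (supO D1 D2).sum_mem fun i _ => smul_mem_supO (a i) (hb.1 i)

/-- reduction of an `A`-combination -/
theorem IsOrthonormalS.redS_sum (hb : IsOrthonormalS D1 D2 b) (a : ι → A) :
    redS D1 D2 (∑ i, algebraMap L F (a i : L) * b i)
      = ∑ i, IsLocalRing.residue A (a i) • redS D1 D2 (b i) := by
  rw [Frame.redS_sum _ _ fun i _ => smul_mem_supO (a i) (hb.1 i)]
  exact Finset.sum_congr rfl fun i _ => redS_smul (a i) (hb.1 i)

/-- an `A`-combination with a unit coefficient has nonzero reduction -/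
theorem IsOrthonormalS.redS_sum_ne_zero (hb : IsOrthonormalS D1 D2 b) (a : ι → A) {i₀ : ι}
    (h : a i₀ ∉ IsLocalRing.maximalIdeal A) :
    redS D1 D2 (∑ i, algebraMap L F (a i : L) * b i) ≠ 0 := by
  rw [hb.redS_sum]
  intro h0
  have := Fintype.linearIndependent_iff.1 hb.2 (fun i => IsLocalRing.residue A (a i)) h0 i₀
  exact h ((IsLocalRing.residue_eq_zero_iff _).1 this)

/-- normal form of an `L`-combination: `c i₀ • (element of the ball with nonzero reduction)` -/
theorem IsOrthonormalS.exists_eq_mul (hb : IsOrthonormalS D1 D2 b) (c : ι → L) (hc : c ≠ 0) :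
    ∃ i₀, c i₀ ≠ 0 ∧ (∀ i, c i / c i₀ ∈ A) ∧
      ∃ y : F, y ∈ supO D1 D2 ∧ redS D1 D2 y ≠ 0 ∧
        ∑ i, algebraMap L F (c i) * b i = algebraMap L F (c i₀) * y := by
  obtain ⟨i₀, h0, hi⟩ := exists_max_coeff A c hc
  refine ⟨i₀, h0, hi, ∑ i, algebraMap L F ((⟨c i / c i₀, hi i⟩ : A) : L) * b i,
    hb.sum_mem _, ?_, ?_⟩
  · apply hb.redS_sum_ne_zero (fun i => (⟨c i / c i₀, hi i⟩ : A)) (i₀ := i₀)
    rw [IsLocalRing.mem_maximalIdeal, mem_nonunits_iff, not_not]
    have : (⟨c i₀ / c i₀, hi i₀⟩ : A) = 1 := by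
      ext; simp [div_self h0]
    rw [this]; exact isUnit_one
  · rw [Finset.mul_sum]
    refine Finset.sum_congr rfl fun i _ => ?_
    rw [← mul_assoc, ← map_mul, mul_div_cancel₀ _ h0]

/-- an orthonormal family is `L`-linearly independent -/
theorem IsOrthonormalS.linearIndependent (hb : IsOrthonormalS D1 D2 b) :
    LinearIndependent L b := by
  rw [Fintype.linearIndependent_iff]
  intro c hc
  by_contra hne
  push Not at hne
  have hc0 : c ≠ 0 := by
    obtain ⟨i, hi⟩ := hne
    intro h
    exact hi (congrFun h i)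
  obtain ⟨i₀, h0, -, y, -, hy, hsum⟩ := hb.exists_eq_mul c hc0
  have hy0 : y ≠ 0 := by
    rintro rfl
    exact hy redS_zero
  have : ∑ i, algebraMap L F (c i) * b i = 0 := by
    simpa [Algebra.smul_def] using hc
  rw [hsum] at this
  rcases mul_eq_zero.1 this with h1 | h1
  · exact h0 ((map_eq_zero _).1 h1)
  · exact hy0 h1

/-- an `L`-combination of an orthonormal family lies in the ball iff all coefficients lie in `A` -/
theorem IsOrthonormalS.sum_mem_iff (hb : IsOrthonormalS D1 D2 b) (c : ι → L) :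
    ∑ i, algebraMap L F (c i) * b i ∈ supO D1 D2 ↔ ∀ i, c i ∈ A := by
  constructor
  · intro h
    by_cases hc : c = 0
    · intro i; rw [hc]; exact A.zero_mem
    obtain ⟨i₀, h0, hi, y, hyO, hy, hsum⟩ := hb.exists_eq_mul c hc
    rw [hsum] at h
    have h2 : c i₀ ∈ A := mem_of_smul_mem_supO hyO hy h
    intro i
    have := A.mul_mem _ _ (hi i) h2
    rwa [div_mul_cancel₀ _ h0] at this
  · intro h
    exact hb.sum_mem fun i => ⟨c i, h i⟩

/-- an element of the ball in the span of an orthonormal family is an `A`-combination -/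
theorem IsOrthonormalS.exists_coeff_of_mem_span (hb : IsOrthonormalS D1 D2 b) {y : F}
    (hy : y ∈ Submodule.span L (Set.range b)) (hyO : y ∈ supO D1 D2) :
    ∃ a : ι → A, y = ∑ i, algebraMap L F (a i : L) * b i := by
  obtain ⟨c, rfl⟩ := (Submodule.mem_span_range_iff_exists_fun L).1 hy
  have h' : ∑ i, algebraMap L F (c i) * b i ∈ supO D1 D2 := by
    simpa [Algebra.smul_def] using hyO
  have hc := (hb.sum_mem_iff c).1 h'
  exact ⟨fun i => ⟨c i, hc i⟩, by simp [Algebra.smul_def]⟩

/-- every `L`-subspace of the span of a finite orthonormal family has an orthonormal basis -/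
theorem exists_orthonormalS_of_le_span (hb : IsOrthonormalS D1 D2 b) (W : Submodule L F)
    (hW : W ≤ Submodule.span L (Set.range b)) :
    ∃ u : Fin (finrank L W) → F, (∀ j, u j ∈ W) ∧ IsOrthonormalS D1 D2 u := by
  classical
  have hinj : Function.Injective (S18lib.Frame.coordMap (L := L) b) := by
    have hli := hb.linearIndependent
    refine (injective_iff_map_eq_zero _).2 fun c hc => ?_
    funext i
    refine Fintype.linearIndependent_iff.1 hli c ?_ i
    simpa [S18lib.Frame.coordMap, Fintype.linearCombination_apply] using hc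
  set U : Submodule L (ι → L) := W.comap (S18lib.Frame.coordMap b) with hU
  have hrange : W ≤ LinearMap.range (S18lib.Frame.coordMap (L := L) b) := by
    rw [S18lib.Frame.coordMap, Fintype.range_linearCombination]; exact hW
  have hmap : U.map (S18lib.Frame.coordMap b) = W := by
    rw [hU, Submodule.map_comap_eq, inf_eq_right.2 hrange]
  have hrank : finrank L U = finrank L W := by
    rw [← hmap]
    exact (LinearEquiv.finrank_eq (Submodule.equivMapOfInjective _ hinj U))
  obtain ⟨e, heU, heind⟩ := S18lib.Frame.exists_integral_basis A (finrank L W) U hrank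
  refine ⟨fun j => ∑ i, algebraMap L F ((e j i : A) : L) * b i, fun j => ?_, ?_, ?_⟩
  · have := heU j
    rw [hU, Submodule.mem_comap, S18lib.Frame.coordMap_apply] at this
    exact this
  · intro j
    exact hb.sum_mem (e j)
  · rw [Fintype.linearIndependent_iff]
    intro α hα j
    have h1 : ∀ j, redS D1 D2 (∑ i, algebraMap L F ((e j i : A) : L) * b i)
        = ∑ i, IsLocalRing.residue A (e j i) • redS D1 D2 (b i) := fun j => hb.redS_sum (e j)
    simp only [h1, Finset.smul_sum, smul_smul] at hα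
    rw [Finset.sum_comm] at hα
    simp only [← Finset.sum_smul] at hα
    have h2 := Fintype.linearIndependent_iff.1 hb.2 _ hα
    have h3 : ∑ j, α j • (fun i => IsLocalRing.residue A (e j i)) = 0 := by
      funext i
      simpa [Finset.sum_apply] using h2 i
    exact Fintype.linearIndependent_iff.1 heind α h3 j

end Fermat.Agent.LSb.Frame
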