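/-
LSb / Frame / Main  (helper2)

**Sup-norm frame ⇒ orthonormal bases for the sup-norm.**
If every `f ∈ F` is `(Σ_i p_i(y) θ_i) / q(y)`, the `θ_i` and `y` lie in `O₁ ∩ O₂`, the reductions of
`y^a θ_i` in `Fk₁ × Fk₂` are `k`-linearly independent and `red₁ y`, `red₂ y` are both
transcendental over `k`, then every finite dimensional `L`-subspace of `F` has a basis which is
orthonormal for the sup-norm `max(|·|₁, |·|₂)`.
-/
import Fermat.Agent.LSb.Frame.Sup
import Fermat.Agent.S18lib.Frame.Family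

set_option autoImplicit false

noncomputable section

namespace Fermat.Agent.LSb.Frame

open Fermat.Agent.S18lib Module Polynomial
open Fermat.Agent.S18lib.Frame (monomialsFam VtFam monomial_mem_VtFam VtFam_mono
  mul_aeval_mem_VtFam aeval_mul_pow_mem_VtFam)

variable {L : Type*} [Field L] {A : ValuationSubring L}
variable {F : Type*} [Field F] [Algebra L F]
variable {Fk1 : Type*} [Field Fk1] [Algebra (IsLocalRing.ResidueField A) Fk1]
variable {Fk2 : Type*} [Field Fk2] [Algebra (IsLocalRing.ResidueField A) Fk2]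

local notation "k" => IsLocalRing.ResidueField A

/-- A *sup-norm frame*: `F = L(y)[θ_i]`, and the reductions of the monomials `y^a θ_i` in the
product `Fk₁ × Fk₂` are linearly independent over `k`; both reductions of `y` are transcendental. -/
structure IsFrameFamilyS (D1 : GaussDatum A F Fk1) (D2 : GaussDatum A F Fk2) (y : F) {n : ℕ}
    (θ : Fin n → F) : Prop where
  y_mem : y ∈ supO D1 D2
  θ_mem : ∀ i, θ i ∈ supO D1 D2
  exists_repr : ∀ f : F, ∃ (q : L[X]) (p : Fin n → L[X]), q ≠ 0 ∧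
    f * aeval y q = ∑ i, aeval y (p i) * θ i
  red_indep : LinearIndependent k
    (fun m : ℕ × Fin n => redS D1 D2 y ^ m.1 * redS D1 D2 (θ m.2))
  trans1 : Transcendental k (D1.redF y)
  trans2 : Transcendental k (D2.redF y)

variable {D1 : GaussDatum A F Fk1} {D2 : GaussDatum A F Fk2} {y : F} {n : ℕ} {θ : Fin n → F}

/-- the monomials `y^a θ_i`, `a ≤ t`, are orthonormal for the sup-norm -/
theorem isOrthonormalS_monomials_of (y_mem : y ∈ supO D1 D2) (θ_mem : ∀ i, θ i ∈ supO D1 D2)
    (red_indep : LinearIndependent k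
      (fun m : ℕ × Fin n => redS D1 D2 y ^ m.1 * redS D1 D2 (θ m.2))) (t : ℕ) :
    IsOrthonormalS D1 D2 (monomialsFam y θ t) := by
  refine ⟨fun m => (supO D1 D2).mul_mem ((supO D1 D2).pow_mem y_mem _) (θ_mem _), ?_⟩
  have hinj : Function.Injective
      (fun m : Fin (t + 1) × Fin n => (((m.1 : ℕ), m.2) : ℕ × Fin n)) := by
    rintro ⟨a, i⟩ ⟨a', i'⟩ hh
    simp only [Prod.mk.injEq] at hh
    exact Prod.ext (Fin.ext hh.1) hh.2
  have hcomp := red_indep.comp _ hinj
  have heq : (fun m : Fin (t + 1) × Fin n => redS D1 D2 (monomialsFam y θ t m))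
      = (fun m : ℕ × Fin n => redS D1 D2 y ^ m.1 * redS D1 D2 (θ m.2)) ∘
        (fun m : Fin (t + 1) × Fin n => (((m.1 : ℕ), m.2) : ℕ × Fin n)) := by
    funext m
    simp only [monomialsFam, Function.comp_apply]
    rw [redS_mul ((supO D1 D2).pow_mem y_mem _) (θ_mem _), redS_pow y_mem]
  rw [heq]
  exact hcomp

theorem IsFrameFamilyS.isOrthonormalS_monomials (h : IsFrameFamilyS D1 D2 y θ) (t : ℕ) :
    IsOrthonormalS D1 D2 (monomialsFam y θ t) :=
  isOrthonormalS_monomials_of h.y_mem h.θ_mem h.red_indep t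

/-- every element of `F` is in some `Vt` after multiplication by a nonzero polynomial in `y` -/
theorem IsFrameFamilyS.exists_mul_mem_Vt (h : IsFrameFamilyS D1 D2 y θ) (f : F) :
    ∃ (q : L[X]) (t : ℕ), q ≠ 0 ∧ f * aeval y q ∈ VtFam (L := L) y θ t := by
  obtain ⟨q, p, hq, hf⟩ := h.exists_repr f
  refine ⟨q, Finset.univ.sup fun i => (p i).natDegree, hq, ?_⟩
  rw [hf]
  refine Submodule.sum_mem _ fun i _ => ?_
  exact VtFam_mono (Finset.le_sup (f := fun i => (p i).natDegree) (Finset.mem_univ i))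
    (aeval_mul_pow_mem_VtFam (p i) i)

/-- common denominator for a finite family -/
theorem IsFrameFamilyS.exists_common (h : IsFrameFamilyS D1 D2 y θ) {d : ℕ} (w : Fin d → F) :
    ∃ (q : L[X]) (t : ℕ), q ≠ 0 ∧ ∀ j, w j * aeval y q ∈ VtFam (L := L) y θ t := by
  induction d with
  | zero => exact ⟨1, 0, one_ne_zero, fun j => j.elim0⟩
  | succ d ih =>
    obtain ⟨q, t, hq, hqt⟩ := ih (fun j => w j.succ)
    obtain ⟨q₀, t₀, hq₀, hqt₀⟩ := h.exists_mul_mem_Vt (w 0)
    refine ⟨q * q₀, max (t + q₀.natDegree) (t₀ + q.natDegree), mul_ne_zero hq hq₀, fun j => ?_⟩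
    rw [map_mul]
    refine Fin.cases ?_ (fun j' => ?_) j
    · rw [mul_comm (aeval y q), ← mul_assoc]
      exact VtFam_mono (le_max_right _ _) (mul_aeval_mem_VtFam hqt₀ q)
    · rw [← mul_assoc]
      exact VtFam_mono (le_max_left _ _) (mul_aeval_mem_VtFam (hqt j') q₀)

/-- reduction of an `A`-polynomial in an element of a Gauss ring -/
theorem redF_sum_pow {Fk : Type*} [Field Fk] [Algebra k Fk] (D : GaussDatum A F Fk) {y : F}
    (hy : y ∈ D.O) {t : ℕ} (a : Fin (t + 1) → A) :
    (∑ i, algebraMap L F (a i : L) * y ^ (i : ℕ)) ∈ D.O ∧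
    D.redF (∑ i, algebraMap L F (a i : L) * y ^ (i : ℕ)) =
      aeval (D.redF y) (∑ i : Fin (t + 1), C (IsLocalRing.residue A (a i)) * X ^ (i : ℕ)) := by
  have hmem : ∀ i ∈ (Finset.univ : Finset (Fin (t + 1))),
      algebraMap L F (a i : L) * y ^ (i : ℕ) ∈ D.O :=
    fun i _ => D.smul_mem (a i) (D.O.pow_mem hy _)
  refine ⟨D.O.sum_mem hmem, ?_⟩
  rw [D.redF_sum _ _ hmem, map_sum]
  refine Finset.sum_congr rfl fun i _ => ?_
  rw [D.redF_smul (a i) (D.O.pow_mem hy _), D.redF_pow hy, map_mul, aeval_C, map_pow, aeval_X,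
    Algebra.smul_def]

/-- a nonzero polynomial in `y` is a nonzero constant `c` (a coefficient of maximal absolute value)
times an element which is a unit for both valuations -/
theorem exists_aeval_eq_of_transcendental' (y_mem : y ∈ supO D1 D2)
    (trans1 : Transcendental k (D1.redF y)) (trans2 : Transcendental k (D2.redF y))
    {q : L[X]} (hq : q ≠ 0) :
    ∃ (c : L) (u : F), c ≠ 0 ∧ (∀ i, q.coeff i / c ∈ A) ∧ D1.redF u ≠ 0 ∧ D2.redF u ≠ 0 ∧
      aeval y q = algebraMap L F c * u := by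
  classical
  set t := q.natDegree with ht
  let c : Fin (t + 1) → L := fun a => q.coeff (a : ℕ)
  have hc : c ≠ 0 := by
    intro h0
    have := congrFun h0 ⟨t, Nat.lt_succ_self t⟩
    simp only [c, Pi.zero_apply] at this
    exact hq (leadingCoeff_eq_zero.1 this)
  obtain ⟨a₀, h0, hi⟩ := exists_max_coeff A c hc
  let a : Fin (t + 1) → A := fun i => ⟨c i / c a₀, hi i⟩
  set qbar : k[X] := ∑ i : Fin (t + 1), C (IsLocalRing.residue A (a i)) * X ^ (i : ℕ) with hqbar
  have hqbar0 : qbar ≠ 0 := by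
    intro h
    have h1 : qbar.coeff (a₀ : ℕ) = 1 := by
      rw [hqbar, finsetSum_coeff, Finset.sum_eq_single a₀]
      · rw [coeff_C_mul, coeff_X_pow, if_pos rfl, mul_one]
        have : a a₀ = 1 := by
          ext; simp [a, div_self h0]
        rw [this, map_one]
      · intro i _ hne
        rw [coeff_C_mul, coeff_X_pow, if_neg, mul_zero]
        intro hh
        exact hne (Fin.ext hh.symm)
      · intro hh; exact absurd (Finset.mem_univ _) hh
    rw [h, coeff_zero] at h1
    exact zero_ne_one h1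
  rw [mem_supO] at y_mem
  set u : F := ∑ i, algebraMap L F (a i : L) * y ^ (i : ℕ) with hu
  have hu1 := redF_sum_pow D1 y_mem.1 a
  have hu2 := redF_sum_pow D2 y_mem.2 a
  refine ⟨c a₀, u, h0, ?_, ?_, ?_, ?_⟩
  · intro i
    by_cases hit : i < t + 1
    · exact hi ⟨i, hit⟩
    · rw [coeff_eq_zero_of_natDegree_lt (by omega), zero_div]
      exact A.zero_mem
  · rw [hu1.2]
    intro h
    exact hqbar0 (transcendental_iff.1 trans1 _ h)
  · rw [hu2.2]
    intro h
    exact hqbar0 (transcendental_iff.1 trans2 _ h)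
  · rw [hu, Finset.mul_sum, aeval_eq_sum_range, Finset.sum_range]
    refine Finset.sum_congr rfl fun i _ => ?_
    show q.coeff (i : ℕ) • y ^ (i : ℕ) = algebraMap L F (c a₀) * (algebraMap L F (c i / c a₀) * _)
    rw [← mul_assoc, ← map_mul, mul_div_cancel₀ _ h0, Algebra.smul_def]

/-- a nonzero polynomial in `y` is a nonzero constant times an element which is a unit for both
valuations -/
theorem exists_aeval_eq_of_transcendental (y_mem : y ∈ supO D1 D2)
    (trans1 : Transcendental k (D1.redF y)) (trans2 : Transcendental k (D2.redF y))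
    {q : L[X]} (hq : q ≠ 0) :
    ∃ (c : L) (u : F), c ≠ 0 ∧ D1.redF u ≠ 0 ∧ D2.redF u ≠ 0 ∧
      aeval y q = algebraMap L F c * u := by
  obtain ⟨c, u, hc, -, h1, h2, h3⟩ :=
    exists_aeval_eq_of_transcendental' y_mem trans1 trans2 hq
  exact ⟨c, u, hc, h1, h2, h3⟩

/-- **Sup-norm frame ⇒ orthonormal bases for the sup-norm.** -/
theorem IsFrameFamilyS.hasOrthonormalBasesS (h : IsFrameFamilyS D1 D2 y θ) :
    HasOrthonormalBasesS D1 D2 := by
  classical
  intro W hWfin
  set d := finrank L W with hd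
  let w := Module.finBasis L W
  obtain ⟨q, t, hq, hqt⟩ := h.exists_common (fun j => (w j : F))
  obtain ⟨c, u, hc, hu1, hu2, hqu⟩ :=
    exists_aeval_eq_of_transcendental h.y_mem h.trans1 h.trans2 hq
  have hu0 : u ≠ 0 := by
    rintro rfl
    exact hu1 D1.redF_zero
  have huO : u ∈ supO D1 D2 :=
    mem_supO.2 ⟨D1.mem_of_redF_ne_zero hu1, D2.mem_of_redF_ne_zero hu2⟩
  have huiO : u⁻¹ ∈ supO D1 D2 :=
    mem_supO.2 ⟨D1.inv_mem_of_redF_ne_zero hu1, D2.inv_mem_of_redF_ne_zero hu2⟩
  have hredu : redS D1 D2 u⁻¹ * redS D1 D2 u = 1 := by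
    rw [← redS_mul huiO huO, inv_mul_cancel₀ hu0, redS_one]
  -- multiplication by u
  let μ : F →ₗ[L] F := LinearMap.mulRight L u
  have hμinj : Function.Injective μ := fun a b hab => by
    simpa [μ, hu0] using hab
  set W' : Submodule L F := W.map μ with hW'
  have hrank : finrank L W' = d := by
    rw [hW', hd]
    exact (LinearEquiv.finrank_eq (Submodule.equivMapOfInjective μ hμinj W)).symm
  have hW'le : W' ≤ Submodule.span L (Set.range (monomialsFam y θ t)) := by
    rw [hW', Submodule.map_le_iff_le_comap]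
    intro x hx
    rw [Submodule.mem_comap]
    have hxrepr : x = ∑ j, (w.repr ⟨x, hx⟩ j) • (w j : F) := by
      have h1 := w.sum_repr ⟨x, hx⟩
      have h2 : ((∑ j, w.repr ⟨x, hx⟩ j • w j : W) : F) = x := congrArg (Subtype.val) h1
      refine h2.symm.trans ?_
      rw [Submodule.coe_sum]
      simp only [Submodule.coe_smul]
    have hcF : algebraMap L F c ≠ 0 := (_root_.map_ne_zero _).2 hc
    have hueq : u = algebraMap L F c⁻¹ * aeval y q := by
      rw [hqu, map_inv₀, ← mul_assoc, inv_mul_cancel₀ hcF, one_mul]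
    show x * u ∈ _
    rw [hxrepr, Finset.sum_mul]
    refine Submodule.sum_mem _ fun j _ => ?_
    rw [smul_mul_assoc]
    refine Submodule.smul_mem _ _ ?_
    rw [hueq, mul_left_comm, ← Algebra.smul_def]
    exact Submodule.smul_mem _ _ (hqt j)
  obtain ⟨u', hu'W, hu'orth⟩ :=
    exists_orthonormalS_of_le_span (h.isOrthonormalS_monomials t) W' hW'le
  refine ⟨fun j => u' (Fin.cast hrank.symm j) * u⁻¹, fun j => ?_, fun j => ?_, ?_⟩
  · obtain ⟨x, hx, hxu⟩ := hu'W (Fin.cast hrank.symm j)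
    have : u' (Fin.cast hrank.symm j) * u⁻¹ = x := by
      rw [← hxu]
      show x * u * u⁻¹ = x
      rw [mul_assoc, mul_inv_cancel₀ hu0, mul_one]
    show u' (Fin.cast hrank.symm j) * u⁻¹ ∈ W
    rw [this]; exact hx
  · exact (supO D1 D2).mul_mem (hu'orth.1 _) huiO
  · have h1 : (fun j : Fin d => redS D1 D2 (u' (Fin.cast hrank.symm j) * u⁻¹))
        = fun j => redS D1 D2 (u' (Fin.cast hrank.symm j)) * redS D1 D2 u⁻¹ := by
      funext j
      rw [redS_mul (hu'orth.1 _) huiO]
    rw [h1]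
    have h2 : LinearIndependent k (fun j : Fin d => redS D1 D2 (u' (Fin.cast hrank.symm j))) :=
      hu'orth.2.comp _ (Fin.cast_injective _)
    rw [Fintype.linearIndependent_iff] at h2 ⊢
    intro α hα j
    refine h2 α ?_ j
    have h3 : (∑ j, α j • (redS D1 D2 (u' (Fin.cast hrank.symm j)) * redS D1 D2 u⁻¹))
        * redS D1 D2 u = 0 := by rw [hα, zero_mul]
    rw [Finset.sum_mul] at h3
    rw [← h3]
    refine Finset.sum_congr rfl fun j _ => ?_
    rw [smul_mul_assoc, mul_assoc, hredu, mul_one]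

end Fermat.Agent.LSb.Frame
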