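/-
LSb / Frame / Integral  (helper2)

**Integrality descends to the special fibre** (CHART, (N2⁺a)).
In the situation of a sup-norm frame `IsFrameFamilyS D1 D2 y θ`: if `f ∈ O₁ ∩ O₂` is integral over
`L[y]`, then `f` is a root of a monic polynomial with coefficients in `A[y]`; consequently
`red_i f` is integral over `k[red_i y]`, i.e. lies in every valuation ring of `Fk_i` containing
`k` and `red_i y`.

Proof (no Galois closure, no conjugates): the frame `θ` gives `f u θ = M θ` with `u ∈ L[y]` a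
unit for both valuations and `M` a matrix with entries in `L[y] ∩ O₁ ∩ O₂`, so `f` is integral
over the Gauss valuation ring `V_i = L(y) ∩ O_i` of `K = L(y)`; since `L[y]` and `V_i` are both
integrally closed in `K`, the minimal polynomial of `f` over `K` has coefficients in
`L[y] ∩ V_1 ∩ V_2 = A[y]`.
-/
import Fermat.Agent.LSb.Frame.Main

set_option autoImplicit false

noncomputable section

namespace Fermat.Agent.LSb.Frame

open Fermat.Agent.S18lib Module Polynomial IntermediateField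
open IntermediateField.algebraAdjoinAdjoin
open Fermat.Agent.S18lib.Frame (monomialsFam VtFam)

variable {L : Type*} [Field L] {A : ValuationSubring L}
variable {F : Type*} [Field F] [Algebra L F]
variable {Fk1 : Type*} [Field Fk1] [Algebra (IsLocalRing.ResidueField A) Fk1]
variable {Fk2 : Type*} [Field Fk2] [Algebra (IsLocalRing.ResidueField A) Fk2]

local notation "k" => IsLocalRing.ResidueField A

variable {D1 : GaussDatum A F Fk1} {D2 : GaussDatum A F Fk2} {y : F} {n : ℕ} {θ : Fin n → F}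

/-! ### Step A: the multiplication matrix -/

/-- `f u θ = M θ` with `u ∈ L[y]` a unit for both valuations, `M` with entries in
`L[y] ∩ O₁ ∩ O₂`. -/
theorem IsFrameFamilyS.exists_matrix (h : IsFrameFamilyS D1 D2 y θ) {f : F}
    (hf : f ∈ supO D1 D2) :
    ∃ (u : F) (M : Matrix (Fin n) (Fin n) F), u ∈ Algebra.adjoin L {y} ∧ D1.redF u ≠ 0 ∧
      D2.redF u ≠ 0 ∧ (∀ l m, M l m ∈ supO D1 D2 ∧ M l m ∈ Algebra.adjoin L {y}) ∧
      ∀ l, f * u * θ l = ∑ m, M l m * θ m := by
  classical
  obtain ⟨q, t, hq, hqt⟩ := h.exists_common (fun l => f * θ l)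
  obtain ⟨c, u, hc, hu1, hu2, hqu⟩ :=
    exists_aeval_eq_of_transcendental h.y_mem h.trans1 h.trans2 hq
  have hcF : algebraMap L F c ≠ 0 := (_root_.map_ne_zero _).2 hc
  have hueq : u = algebraMap L F c⁻¹ * aeval y q := by
    rw [hqu, map_inv₀, ← mul_assoc, inv_mul_cancel₀ hcF, one_mul]
  have hyR : y ∈ Algebra.adjoin L {y} := Algebra.self_mem_adjoin_singleton L y
  have huR : u ∈ Algebra.adjoin L {y} := by
    rw [hueq]
    refine Subalgebra.mul_mem _ (Subalgebra.algebraMap_mem _ _) ?_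
    rw [Algebra.adjoin_singleton_eq_range_aeval]
    exact ⟨q, rfl⟩
  have huO : u ∈ supO D1 D2 :=
    mem_supO.2 ⟨D1.mem_of_redF_ne_zero hu1, D2.mem_of_redF_ne_zero hu2⟩
  have horth := h.isOrthonormalS_monomials t
  -- coefficients
  have hcoef : ∀ l, ∃ α : Fin (t + 1) × Fin n → A,
      f * θ l * u = ∑ am, algebraMap L F (α am : L) * monomialsFam y θ t am := by
    intro l
    refine horth.exists_coeff_of_mem_span ?_
      ((supO D1 D2).mul_mem ((supO D1 D2).mul_mem hf (h.θ_mem l)) huO)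
    rw [hueq, mul_left_comm, ← Algebra.smul_def]
    exact Submodule.smul_mem _ _ (hqt l)
  choose α hα using hcoef
  refine ⟨u, fun l m => ∑ a : Fin (t + 1), algebraMap L F (α l (a, m) : L) * y ^ (a : ℕ),
    huR, hu1, hu2, fun l m => ⟨?_, ?_⟩, fun l => ?_⟩
  · exact (supO D1 D2).sum_mem fun a _ =>
      smul_mem_supO (α l (a, m)) ((supO D1 D2).pow_mem h.y_mem _)
  · exact Subalgebra.sum_mem _ fun a _ =>
      Subalgebra.mul_mem _ (Subalgebra.algebraMap_mem _ _) (Subalgebra.pow_mem _ hyR _)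
  · rw [mul_right_comm, hα l, Fintype.sum_prod_type, Finset.sum_comm]
    refine Finset.sum_congr rfl fun m _ => ?_
    rw [Finset.sum_mul]
    refine Finset.sum_congr rfl fun a _ => ?_
    simp only [monomialsFam]
    ring

/-- the frame vector is nonzero -/
theorem IsFrameFamilyS.θ_ne_zero (h : IsFrameFamilyS D1 D2 y θ) : θ ≠ 0 := by
  intro h0
  obtain ⟨q, p, hq, hrepr⟩ := h.exists_repr 1
  obtain ⟨c, u, hc, hu1, -, hqu⟩ :=
    exists_aeval_eq_of_transcendental h.y_mem h.trans1 h.trans2 hq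
  rw [h0] at hrepr
  simp only [Pi.zero_apply, mul_zero, Finset.sum_const_zero, one_mul] at hrepr
  rw [hqu] at hrepr
  rcases mul_eq_zero.1 hrepr with h1 | h1
  · exact hc ((map_eq_zero _).1 h1)
  · rw [h1] at hu1
    exact hu1 D1.redF_zero

/-- `y` is transcendental over `L` -/
theorem IsFrameFamilyS.transcendental (h : IsFrameFamilyS D1 D2 y θ) : Transcendental L y := by
  rw [transcendental_iff]
  intro q hq0
  by_contra hq
  obtain ⟨c, u, hc, hu1, -, hqu⟩ :=
    exists_aeval_eq_of_transcendental h.y_mem h.trans1 h.trans2 hq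
  rw [hqu] at hq0
  rcases mul_eq_zero.1 hq0 with h1 | h1
  · exact hc ((map_eq_zero _).1 h1)
  · rw [h1] at hu1
    exact hu1 D1.redF_zero


/-! ### Step A': integrality over the Gauss valuation ring of `L(y)` -/

section OneSided

variable {Fk : Type*} [Field Fk] [Algebra (IsLocalRing.ResidueField A) Fk]

/-- the Gauss valuation ring of `K = L(y)` induced by `D` -/
def gaussSub (D : GaussDatum A F Fk) (y : F) : Subring L⟮y⟯ :=
  D.O.toSubring.comap (algebraMap L⟮y⟯ F)

theorem mem_gaussSub {D : GaussDatum A F Fk} {y : F} {x : L⟮y⟯} :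
    x ∈ gaussSub D y ↔ (x : F) ∈ D.O := Iff.rfl

/-- Step A': `f` is a root of a monic polynomial over the Gauss valuation ring of `L(y)` -/
theorem exists_monic_gaussSub (D : GaussDatum A F Fk) {y f u : F} {n : ℕ} {θ : Fin n → F}
    (hθ : θ ≠ 0) {M : Matrix (Fin n) (Fin n) F} (huR : u ∈ Algebra.adjoin L {y})
    (hu : D.redF u ≠ 0) (hM : ∀ l m, M l m ∈ D.O ∧ M l m ∈ Algebra.adjoin L {y})
    (hrel : ∀ l, f * u * θ l = ∑ m, M l m * θ m) :
    ∃ p : (gaussSub D y)[X], p.Monic ∧
      eval₂ ((algebraMap L⟮y⟯ F).comp (gaussSub D y).subtype) f p = 0 := by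
  classical
  have hle := IntermediateField.algebra_adjoin_le_adjoin L ({y} : Set F)
  set φ : gaussSub D y →+* F := (algebraMap L⟮y⟯ F).comp (gaussSub D y).subtype with hφ
  let MS : Matrix (Fin n) (Fin n) (gaussSub D y) :=
    fun l m => ⟨⟨M l m, hle (hM l m).2⟩, (hM l m).1⟩
  have hMS : MS.map φ = M := by
    ext l m
    rfl
  have hu0 : u ≠ 0 := by
    rintro rfl
    exact hu D.redF_zero
  have hdet : (Matrix.scalar (Fin n) (f * u) - M).det = 0 := by
    rw [← Matrix.exists_mulVec_eq_zero_iff]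
    refine ⟨θ, hθ, ?_⟩
    ext l
    simp only [Matrix.sub_mulVec, Pi.sub_apply, Pi.zero_apply]
    rw [sub_eq_zero]
    simp only [Matrix.mulVec, dotProduct, Matrix.scalar_apply, Matrix.diagonal_apply]
    rw [Finset.sum_eq_single l]
    · rw [if_pos rfl, hrel l]
    · intro m _ hml
      rw [if_neg (Ne.symm hml), zero_mul]
    · intro hl; exact absurd (Finset.mem_univ _) hl
  have h0 : eval₂ φ (f * u) MS.charpoly = 0 := by
    rw [← eval_map, ← Matrix.charpoly_map, hMS, Matrix.eval_charpoly, hdet]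
  let s : gaussSub D y := ⟨⟨u⁻¹, inv_mem (hle huR)⟩, D.inv_mem_of_redF_ne_zero hu⟩
  refine ⟨MS.charpoly.scaleRoots s, (monic_scaleRoots_iff s).2 (Matrix.charpoly_monic MS), ?_⟩
  have := scaleRoots_eval₂_eq_zero φ (s := s) h0
  have hs : φ s * (f * u) = f := by
    show u⁻¹ * (f * u) = f
    rw [mul_comm f u, ← mul_assoc, inv_mul_cancel₀ hu0, one_mul]
  rwa [hs] at this

/-! ### Step B: Gauss's lemma -/

/-- Step B: the coefficients of the minimal polynomial over `L(y)` are integral for `D` -/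
theorem coeff_minpoly_mem (D : GaussDatum A F Fk) {y f : F} (p : (gaussSub D y)[X])
    (hp : p.Monic)
    (h0 : eval₂ ((algebraMap L⟮y⟯ F).comp (gaussSub D y).subtype) f p = 0) (j : ℕ) :
    (((minpoly L⟮y⟯ f).coeff j : L⟮y⟯) : F) ∈ D.O := by
  have hint : IsIntegral L⟮y⟯ f :=
    ⟨p.map (gaussSub D y).subtype, hp.map _, by rw [eval₂_map]; exact h0⟩
  have hd : minpoly L⟮y⟯ f ∣ p.map (algebraMap (gaussSub D y) L⟮y⟯) := by
    refine minpoly.dvd L⟮y⟯ f ?_
    rw [aeval_def, eval₂_map]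
    exact h0
  have hl := integralClosure.mem_lifts_of_monic_of_dvd_map L⟮y⟯ hp (minpoly.monic hint) hd
  obtain ⟨c, hc⟩ := (lifts_iff_coeff_lifts _).1 hl j
  have hcint : IsIntegral (gaussSub D y) (c : L⟮y⟯) := c.2
  have : IsScalarTower (gaussSub D y) L⟮y⟯ F := IsScalarTower.of_algebraMap_eq fun _ => rfl
  have hcF : IsIntegral (gaussSub D y) (algebraMap L⟮y⟯ F (c : L⟮y⟯)) := hcint.algebraMap
  have hle : (integralClosure (gaussSub D y) F).toSubring ≤ D.O.toSubring := by
    have : IsIntegrallyClosedIn D.O.toSubring F := inferInstanceAs (IsIntegrallyClosedIn D.O F)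
    rw [Subring.integralClosure_le_iff]
    intro r
    exact r.2
  have := hle hcF
  rw [← hc]
  exact this

end OneSided

/-! ### Step C: `L[y] ∩ O₁ ∩ O₂ = A[y]` -/

/-- evaluation `A[X] → F`, `X ↦ y` -/
def evA (A : ValuationSubring L) (y : F) : (↥A)[X] →+* F :=
  eval₂RingHom ((algebraMap L F).comp A.subtype) y

theorem evA_apply (q : (↥A)[X]) : evA A y q = aeval y (q.map A.subtype) := by
  rw [evA, coe_eval₂RingHom, aeval_def, eval₂_map]

/-- Step C: `L[y] ∩ O₁ ∩ O₂ = A[y]` -/
theorem exists_evA_eq (y_mem : y ∈ supO D1 D2)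
    (trans1 : Transcendental k (D1.redF y)) (trans2 : Transcendental k (D2.redF y))
    {r : F} (hrR : r ∈ Algebra.adjoin L {y}) (hrO : r ∈ supO D1 D2) :
    ∃ q : (↥A)[X], evA A y q = r := by
  rw [Algebra.adjoin_singleton_eq_range_aeval] at hrR
  obtain ⟨q, rfl⟩ := hrR
  by_cases hq : q = 0
  · exact ⟨0, by rw [hq]; simp⟩
  obtain ⟨c, u, hc, hcoef, hu1, hu2, hqu⟩ :=
    exists_aeval_eq_of_transcendental' y_mem trans1 trans2 hq
  have huO : u ∈ supO D1 D2 :=
    mem_supO.2 ⟨D1.mem_of_redF_ne_zero hu1, D2.mem_of_redF_ne_zero hu2⟩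
  have hred : redS D1 D2 u ≠ 0 := fun h0 => hu1 (congrArg Prod.fst h0)
  have hcA : c ∈ A := by
    apply mem_of_smul_mem_supO huO hred
    rw [← hqu]; exact hrO
  have hqA : ∀ i, q.coeff i ∈ A := fun i => by
    have := A.mul_mem _ _ (hcoef i) hcA
    rwa [div_mul_cancel₀ _ hc] at this
  have hl : q ∈ lifts A.subtype := by
    rw [lifts_iff_coeff_lifts]
    intro i
    exact ⟨⟨q.coeff i, hqA i⟩, rfl⟩
  obtain ⟨q', hq'⟩ := hl
  refine ⟨q', ?_⟩
  rw [evA_apply, ← hq', coe_mapRingHom]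
  rfl

/-! ### The integrality theorem on the generic fibre -/

/-- **(Int)**: in a sup-norm frame situation, an element of `O₁ ∩ O₂` which is integral over
`L[y]` is integral over `A[y]`. -/
theorem IsFrameFamilyS.isIntegralElem_evA (h : IsFrameFamilyS D1 D2 y θ) {f : F}
    (hf : f ∈ supO D1 D2) (hint : IsIntegral (Algebra.adjoin L {y}) f) :
    (evA A y).IsIntegralElem f := by
  obtain ⟨u, M, huR, hu1, hu2, hM, hrel⟩ := h.exists_matrix hf
  obtain ⟨p1, hp1, h01⟩ := exists_monic_gaussSub D1 h.θ_ne_zero huR hu1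
    (fun l m => ⟨(mem_supO.1 (hM l m).1).1, (hM l m).2⟩) hrel
  obtain ⟨p2, hp2, h02⟩ := exists_monic_gaussSub D2 h.θ_ne_zero huR hu2
    (fun l m => ⟨(mem_supO.1 (hM l m).1).2, (hM l m).2⟩) hrel
  have hc1 := coeff_minpoly_mem D1 p1 hp1 h01
  have hc2 := coeff_minpoly_mem D2 p2 hp2 h02
  have hic : IsIntegrallyClosed (Algebra.adjoin L {y}) :=
    IsIntegrallyClosed.of_equiv (algEquivOfTranscendental L y h.transcendental).toRingEquiv
  have hmin := minpoly.isIntegrallyClosed_eq_field_fractions' L⟮y⟯ hint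
  set μ := minpoly (Algebra.adjoin L {y}) f with hμ
  have hμO : ∀ j, ((μ.coeff j : Algebra.adjoin L {y}) : F) ∈ supO D1 D2 := by
    intro j
    have e : (((minpoly L⟮y⟯ f).coeff j : L⟮y⟯) : F)
        = ((μ.coeff j : Algebra.adjoin L {y}) : F) := by
      rw [hmin, coeff_map]; rfl
    exact mem_supO.2 ⟨e ▸ hc1 j, e ▸ hc2 j⟩
  have hlift : μ.map (algebraMap (Algebra.adjoin L {y}) F) ∈ lifts (evA A y) := by
    rw [lifts_iff_coeff_lifts]
    intro j
    rw [coeff_map]
    exact exists_evA_eq h.y_mem h.trans1 h.trans2 (μ.coeff j).2 (hμO j)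
  obtain ⟨q, hq, -, hqm⟩ := lifts_and_degree_eq_and_monic hlift ((minpoly.monic hint).map _)
  refine ⟨q, hqm, ?_⟩
  rw [← eval_map, hq, eval_map, ← aeval_def, minpoly.aeval]

/-- integrality over `L[y]` from regularity at all valuation rings containing `L` and `y` -/
theorem isIntegral_adjoin_of_forall_mem {y f : F}
    (hreg : ∀ V : ValuationSubring F, (∀ c : L, algebraMap L F c ∈ V) → y ∈ V → f ∈ V) :
    IsIntegral (Algebra.adjoin L {y}) f := by
  by_contra hf
  have hfT : f ∉ (integralClosure (Algebra.adjoin L {y}) F).toSubring := fun h => hf h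
  obtain ⟨V, hV, hfV⟩ := Subring.exists_le_valuationSubring_of_isIntegrallyClosedIn hfT
  refine hfV (hreg V (fun c => hV ?_) (hV ?_))
  · exact (integralClosure (Algebra.adjoin L {y}) F).algebraMap_mem
      (algebraMap L (Algebra.adjoin L {y}) c)
  · exact (integralClosure (Algebra.adjoin L {y}) F).algebraMap_mem
      (⟨y, Algebra.self_mem_adjoin_singleton L y⟩ : Algebra.adjoin L {y})

/-- a root of a monic polynomial over `R[y]` (polynomial form) is integral over
`Algebra.adjoin R {y}` -/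
theorem isIntegral_adjoin_of_isIntegralElem_gen {R B : Type*} [CommRing R] [CommRing B]
    [Algebra R B] {y f : B}
    (h : ((aeval y : R[X] →ₐ[R] B) : R[X] →+* B).IsIntegralElem f) :
    IsIntegral (Algebra.adjoin R {y}) f := by
  obtain ⟨p, hp, h0⟩ := h
  let ψ : R[X] →+* Algebra.adjoin R {y} :=
    ((aeval (⟨y, Algebra.self_mem_adjoin_singleton R y⟩ : Algebra.adjoin R {y}) :
      R[X] →ₐ[R] Algebra.adjoin R {y}) : R[X] →+* Algebra.adjoin R {y})
  have hcomp : (algebraMap (Algebra.adjoin R {y}) B).comp ψ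
      = ((aeval y : R[X] →ₐ[R] B) : R[X] →+* B) := by
    refine Polynomial.ringHom_ext (fun a => ?_) ?_
    · simp [ψ]
    · simp [ψ]
  refine ⟨p.map ψ, hp.map _, ?_⟩
  rw [eval₂_map, hcomp]
  exact h0

/-! ### Step D: reduction -/

section Reduce

variable {Fk : Type*} [Field Fk] [Algebra (IsLocalRing.ResidueField A) Fk]

theorem redF_evA (D : GaussDatum A F Fk) {y : F} (hy : y ∈ D.O) (q : (↥A)[X]) :
    evA A y q ∈ D.O ∧
      D.redF (evA A y q) = aeval (D.redF y) (q.map (IsLocalRing.residue A)) := by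
  induction q using Polynomial.induction_on' with
  | add p q hp hq =>
    refine ⟨by rw [map_add]; exact D.O.add_mem _ _ hp.1 hq.1, ?_⟩
    rw [map_add, D.redF_add hp.1 hq.1, hp.2, hq.2, Polynomial.map_add, map_add]
  | monomial n a =>
    have e : evA A y (monomial n a) = algebraMap L F (a : L) * y ^ n := by
      rw [evA, coe_eval₂RingHom, eval₂_monomial]; rfl
    rw [e]
    refine ⟨D.smul_mem a (D.O.pow_mem hy n), ?_⟩
    rw [D.redF_smul a (D.O.pow_mem hy n), D.redF_pow hy, map_monomial, aeval_monomial,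
      Algebra.smul_def]

theorem redF_eval₂_evA (D : GaussDatum A F Fk) {y f : F} (hy : y ∈ D.O) (hf : f ∈ D.O)
    (p : ((↥A)[X])[X]) :
    eval₂ (evA A y) f p ∈ D.O ∧ D.redF (eval₂ (evA A y) f p) =
      eval₂ ((aeval (D.redF y) : k[X] →ₐ[k] Fk) : k[X] →+* Fk) (D.redF f)
        (p.map (mapRingHom (IsLocalRing.residue A))) := by
  induction p using Polynomial.induction_on' with
  | add p q hp hq =>
    refine ⟨by rw [eval₂_add]; exact D.O.add_mem _ _ hp.1 hq.1, ?_⟩
    rw [eval₂_add, D.redF_add hp.1 hq.1, hp.2, hq.2, Polynomial.map_add, eval₂_add]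
  | monomial n q =>
    have h1 := redF_evA D hy q
    rw [eval₂_monomial]
    refine ⟨D.O.mul_mem _ _ h1.1 (D.O.pow_mem hf n), ?_⟩
    rw [D.redF_mul h1.1 (D.O.pow_mem hf n), D.redF_pow hf, h1.2, map_monomial, eval₂_monomial]
    rfl

/-- Step D: a monic relation over `A[y]` reduces to a monic relation over `k[ȳ]` -/
theorem isIntegralElem_red (D : GaussDatum A F Fk) {y f : F} (hy : y ∈ D.O) (hf : f ∈ D.O)
    (h : (evA A y).IsIntegralElem f) :
    ((aeval (D.redF y) : k[X] →ₐ[k] Fk) : k[X] →+* Fk).IsIntegralElem (D.redF f) := by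
  obtain ⟨p, hp, h0⟩ := h
  refine ⟨p.map (mapRingHom (IsLocalRing.residue A)), hp.map _, ?_⟩
  rw [← (redF_eval₂_evA D hy hf p).2, h0, D.redF_zero]

/-- a root of a monic polynomial over `k[ȳ]` lies in every valuation ring containing `k`, `ȳ` -/
theorem mem_valuationSubring_of_isIntegralElem {ybar fbar : Fk}
    (h : ((aeval ybar : k[X] →ₐ[k] Fk) : k[X] →+* Fk).IsIntegralElem fbar)
    (V : ValuationSubring Fk) (hk : ∀ c : k, algebraMap k Fk c ∈ V) (hyV : ybar ∈ V) :
    fbar ∈ V := by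
  obtain ⟨p, hp, h0⟩ := h
  have hmem : ∀ q : k[X], ((aeval ybar : k[X] →ₐ[k] Fk) : k[X] →+* Fk) q ∈ V.toSubring := by
    intro q
    show aeval ybar q ∈ V
    rw [aeval_eq_sum_range]
    refine V.sum_mem fun i _ => ?_
    rw [Algebra.smul_def]
    exact V.mul_mem _ _ (hk _) (V.pow_mem hyV i)
  let ψ : k[X] →+* V.toSubring :=
    RingHom.codRestrict ((aeval ybar : k[X] →ₐ[k] Fk) : k[X] →+* Fk) V.toSubring hmem
  have hint : IsIntegral V.toSubring fbar :=
    ⟨p.map ψ, hp.map _, by rw [eval₂_map]; exact h0⟩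
  have : IsIntegrallyClosedIn V.toSubring Fk := inferInstanceAs (IsIntegrallyClosedIn V Fk)
  exact Subring.isIntegrallyClosedIn_iff.mp this hint

/-- a root of a monic polynomial over `k[ȳ]` is integral over `Algebra.adjoin k {ȳ}` -/
theorem isIntegral_adjoin_of_isIntegralElem {ybar fbar : Fk}
    (h : ((aeval ybar : k[X] →ₐ[k] Fk) : k[X] →+* Fk).IsIntegralElem fbar) :
    IsIntegral (Algebra.adjoin k {ybar}) fbar :=
  isIntegral_adjoin_of_isIntegralElem_gen h

end Reduce

/-! ### Main statements -/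

/-- **Integrality descends to the special fibre.**  In a sup-norm frame situation, if
`f ∈ O₁ ∩ O₂` is integral over `L[y]`, then `red_i f` is a root of a monic polynomial over
`k[red_i y]`, for `i = 1, 2`. -/
theorem IsFrameFamilyS.isIntegralElem_red (h : IsFrameFamilyS D1 D2 y θ) {f : F}
    (hf : f ∈ supO D1 D2) (hint : IsIntegral (Algebra.adjoin L {y}) f) :
    ((aeval (D1.redF y) : k[X] →ₐ[k] Fk1) : k[X] →+* Fk1).IsIntegralElem (D1.redF f) ∧
    ((aeval (D2.redF y) : k[X] →ₐ[k] Fk2) : k[X] →+* Fk2).IsIntegralElem (D2.redF f) := by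
  have hI := h.isIntegralElem_evA hf hint
  have hy := mem_supO.1 h.y_mem
  have hf' := mem_supO.1 hf
  exact ⟨Frame.isIntegralElem_red D1 hy.1 hf'.1 hI, Frame.isIntegralElem_red D2 hy.2 hf'.2 hI⟩

/-- **CHART, regularity part.**  If `f ∈ O₁ ∩ O₂` lies in every valuation ring of `F/L` containing
`y`, then `red_i f` lies in every valuation ring of `Fk_i/k` containing `red_i y`. -/
theorem IsFrameFamilyS.red_mem_of_forall_mem (h : IsFrameFamilyS D1 D2 y θ) {f : F}
    (hf : f ∈ supO D1 D2)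
    (hreg : ∀ V : ValuationSubring F, (∀ c : L, algebraMap L F c ∈ V) → y ∈ V → f ∈ V) :
    (∀ V : ValuationSubring Fk1, (∀ c : k, algebraMap k Fk1 c ∈ V) → D1.redF y ∈ V →
      D1.redF f ∈ V) ∧
    (∀ V : ValuationSubring Fk2, (∀ c : k, algebraMap k Fk2 c ∈ V) → D2.redF y ∈ V →
      D2.redF f ∈ V) := by
  have hI := h.isIntegralElem_red hf (isIntegral_adjoin_of_forall_mem hreg)
  exact ⟨fun V hk hy => mem_valuationSubring_of_isIntegralElem hI.1 V hk hy,
    fun V hk hy => mem_valuationSubring_of_isIntegralElem hI.2 V hk hy⟩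

end Fermat.Agent.LSb.Frame
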