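/-
LSb / Frame / Build  (helper2)

**Construction of a sup-norm frame from one-sided data** (the "defectless count").
Given `y ∈ O₁ ∩ O₂`, a family `θ1 : Fin n1 → O₁` whose reductions are independent over `k[red₁ y]`
and a family `θ2 : Fin n2 → O₂` whose reductions are independent over `k[red₂ y]`, and
`[F : L(y)] ≤ n1 + n2` (in the "no `n1 + n2 + 1` elements independent over `L[y]`" form of
`ProgramR.BarField.card_le_of_poly_independent`): the approximation lifts `θ1'` (`red = (θ̄1, 0)`),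
`θ2'` (`red = (0, θ̄2)`) form a sup-norm frame.  Hence `HasOrthonormalBasesS D1 D2`.
-/
import Fermat.Agent.LSb.Frame.Main
import Fermat.Agent.ProgramR.BarField.DegreeUpper

set_option autoImplicit false

noncomputable section

namespace Fermat.Agent.LSb.Frame

open Fermat.Agent.S18lib Module Polynomial
open Fermat.Agent.S18lib.Frame (monomialsFam)

variable {L : Type*} [Field L] {A : ValuationSubring L}
variable {F : Type*} [Field F] [Algebra L F]
variable {Fk1 : Type*} [Field Fk1] [Algebra (IsLocalRing.ResidueField A) Fk1]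
variable {Fk2 : Type*} [Field Fk2] [Algebra (IsLocalRing.ResidueField A) Fk2]

local notation "k" => IsLocalRing.ResidueField A

/-- index bookkeeping: `ℕ × Fin (n1 + n2) ≃ ℕ × Fin n1 ⊕ ℕ × Fin n2` -/
def splitIdx (n1 n2 : ℕ) : ℕ × Fin (n1 + n2) ≃ (ℕ × Fin n1) ⊕ (ℕ × Fin n2) :=
  (Equiv.prodCongr (Equiv.refl ℕ) finSumFinEquiv.symm).trans (Equiv.prodSumDistrib ℕ _ _)

theorem splitIdx_castAdd (n1 n2 : ℕ) (a : ℕ) (i : Fin n1) :
    splitIdx n1 n2 (a, Fin.castAdd n2 i) = Sum.inl (a, i) := by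
  simp [splitIdx, finSumFinEquiv_symm_apply_castAdd]

theorem splitIdx_natAdd (n1 n2 : ℕ) (a : ℕ) (i : Fin n2) :
    splitIdx n1 n2 (a, Fin.natAdd n1 i) = Sum.inr (a, i) := by
  simp [splitIdx, finSumFinEquiv_symm_apply_natAdd]

/-- independence of the monomials in the product from one-sided independence -/
theorem linearIndependent_prod_of {M1 M2 : Type*} [CommRing M1] [CommRing M2] [Algebra k M1]
    [Algebra k M2] {n1 n2 : ℕ} (y : M1 × M2) (θ : Fin (n1 + n2) → M1 × M2)
    (h1 : ∀ i, (θ (Fin.castAdd n2 i)).2 = 0) (h2 : ∀ i, (θ (Fin.natAdd n1 i)).1 = 0)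
    (hind1 : LinearIndependent k
      (fun m : ℕ × Fin n1 => y.1 ^ m.1 * (θ (Fin.castAdd n2 m.2)).1))
    (hind2 : LinearIndependent k
      (fun m : ℕ × Fin n2 => y.2 ^ m.1 * (θ (Fin.natAdd n1 m.2)).2)) :
    LinearIndependent k (fun m : ℕ × Fin (n1 + n2) => y ^ m.1 * θ m.2) := by
  have h := linearIndependent_inl_union_inr' hind1 hind2
  have h' := h.comp _ (splitIdx n1 n2).injective
  convert h' using 1
  funext m
  obtain ⟨a, i⟩ := m
  refine Fin.addCases (fun i1 => ?_) (fun i2 => ?_) i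
  · simp only [Function.comp_apply, splitIdx_castAdd, Sum.elim_inl, LinearMap.coe_inl]
    ext
    · simp
    · simp [h1 i1]
  · simp only [Function.comp_apply, splitIdx_natAdd, Sum.elim_inr, LinearMap.coe_inr]
    ext
    · simp [h2 i2]
    · simp

/-- `ȳ` is transcendental as soon as the `ȳ^a θ̄_i` are independent for a nonempty family -/
theorem transcendental_of_linearIndependent {M : Type*} [Field M] [Algebra k M] {n : ℕ}
    (hn : 0 < n) (y : M) (θ : Fin n → M)
    (hind : LinearIndependent k (fun m : ℕ × Fin n => y ^ m.1 * θ m.2)) :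
    Transcendental k y := by
  classical
  rw [transcendental_iff]
  intro p hp
  let i0 : Fin n := ⟨0, hn⟩
  have hinj : Function.Injective (fun a : ℕ => ((a, i0) : ℕ × Fin n)) := fun a b h => by
    simpa using h
  have h1 := hind.comp _ hinj
  have hθ0 : θ i0 ≠ 0 := by
    have := hind.ne_zero ((0 : ℕ), i0)
    simpa using this
  -- Σ p_a y^a θ_{i0} = 0
  have h2 := linearIndependent_iff'.1 h1 (Finset.range (p.natDegree + 1)) (fun a => p.coeff a) ?_
  · ext a
    rw [coeff_zero]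
    by_cases ha : a ∈ Finset.range (p.natDegree + 1)
    · exact h2 a ha
    · apply coeff_eq_zero_of_natDegree_lt
      rw [Finset.mem_range] at ha
      omega
  · have : ∑ a ∈ Finset.range (p.natDegree + 1), p.coeff a • ((fun m : ℕ × Fin n => y ^ m.1 * θ m.2)
        ∘ fun a : ℕ => ((a, i0) : ℕ × Fin n)) a = aeval y p * θ i0 := by
      rw [aeval_eq_sum_range, Finset.sum_mul]
      refine Finset.sum_congr rfl fun a _ => ?_
      simp
    rw [this, hp, zero_mul]

variable {D1 : GaussDatum A F Fk1} {D2 : GaussDatum A F Fk2}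

/-- **The defectless count.**  One-sided frames for `D1` and `D2` with `n1 + n2 ≥ [F : L(y)]`
give a sup-norm frame. -/
theorem exists_isFrameFamilyS (hA : RankOneDvd A) (hne : D1.O ≠ D2.O) {y : F}
    (hy : y ∈ supO D1 D2) {n1 n2 : ℕ} (hn1 : 0 < n1) (hn2 : 0 < n2)
    (θ1 : Fin n1 → F) (θ2 : Fin n2 → F)
    (hθ1 : ∀ i, θ1 i ∈ D1.O) (hθ2 : ∀ i, θ2 i ∈ D2.O)
    (hind1 : LinearIndependent k
      (fun m : ℕ × Fin n1 => D1.redF y ^ m.1 * D1.redF (θ1 m.2)))
    (hind2 : LinearIndependent k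
      (fun m : ℕ × Fin n2 => D2.redF y ^ m.1 * D2.redF (θ2 m.2)))
    (hdeg : ∀ ω : Fin (n1 + n2 + 1) → F,
      ¬ ∀ p : Fin (n1 + n2 + 1) → L[X], ∑ i, aeval y (p i) * ω i = 0 → ∀ i, p i = 0) :
    ∃ θ : Fin (n1 + n2) → F, IsFrameFamilyS D1 D2 y θ ∧
      (∀ i, redS D1 D2 (θ (Fin.castAdd n2 i)) = (D1.redF (θ1 i), 0)) ∧
      (∀ i, redS D1 D2 (θ (Fin.natAdd n1 i)) = (0, D2.redF (θ2 i))) := by
  classical
  choose θ1' h11 h12 h13 h14 using fun i => exists_lift_left hA hne (hθ1 i)
  choose θ2' h21 h22 h23 h24 using fun i => exists_lift_right hA hne (hθ2 i)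
  set θ : Fin (n1 + n2) → F := Fin.append θ1' θ2' with hθ
  have hθl : ∀ i, θ (Fin.castAdd n2 i) = θ1' i := fun i => by rw [hθ, Fin.append_left]
  have hθr : ∀ i, θ (Fin.natAdd n1 i) = θ2' i := fun i => by rw [hθ, Fin.append_right]
  have θ_mem : ∀ i, θ i ∈ supO D1 D2 := by
    intro i
    refine Fin.addCases (fun i1 => ?_) (fun i2 => ?_) i
    · rw [hθl]; exact mem_supO.2 ⟨h11 i1, h12 i1⟩
    · rw [hθr]; exact mem_supO.2 ⟨h21 i2, h22 i2⟩
  have hredl : ∀ i, redS D1 D2 (θ (Fin.castAdd n2 i)) = (D1.redF (θ1 i), 0) := fun i => by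
    rw [hθl]; exact Prod.ext (h13 i) (h14 i)
  have hredr : ∀ i, redS D1 D2 (θ (Fin.natAdd n1 i)) = (0, D2.redF (θ2 i)) := fun i => by
    rw [hθr]; exact Prod.ext (h23 i) (h24 i)
  have red_indep : LinearIndependent k
      (fun m : ℕ × Fin (n1 + n2) => redS D1 D2 y ^ m.1 * redS D1 D2 (θ m.2)) := by
    refine linearIndependent_prod_of (redS D1 D2 y) (fun i => redS D1 D2 (θ i))
      (fun i => by rw [hredl]) (fun i => by rw [hredr]) ?_ ?_
    · simpa only [hredl, redS_fst] using hind1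
    · simpa only [hredr, redS_snd] using hind2
  have trans1 : Transcendental k (D1.redF y) :=
    transcendental_of_linearIndependent hn1 (D1.redF y) (fun i => D1.redF (θ1 i)) hind1
  have trans2 : Transcendental k (D2.redF y) :=
    transcendental_of_linearIndependent hn2 (D2.redF y) (fun i => D2.redF (θ2 i)) hind2
  -- independence over `L[y]`
  have horth := fun t => isOrthonormalS_monomials_of hy θ_mem red_indep t
  have hθind : ∀ p : Fin (n1 + n2) → L[X],
      ∑ i, aeval y (p i) * θ i = 0 → ∀ i, p i = 0 := by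
    apply Fermat.Agent.ProgramR.BarField.poly_of_linearIndependent_powFamily
    intro Dg
    cases Dg with
    | zero =>
      have : IsEmpty (Fin (n1 + n2) × Fin 0) := ⟨fun ik => ik.2.elim0⟩
      exact linearIndependent_empty_type
    | succ t =>
      have h1 := (horth t).linearIndependent
      have hinj : Function.Injective
          (fun ik : Fin (n1 + n2) × Fin (t + 1) =>
            ((ik.2, ik.1) : Fin (t + 1) × Fin (n1 + n2))) := by
        rintro ⟨a, b⟩ ⟨a', b'⟩ hh
        simp only [Prod.mk.injEq] at hh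
        exact Prod.ext hh.2 hh.1
      have h2 := h1.comp _ hinj
      have heq2 : (Fermat.Agent.ProgramR.BarField.powFamily y θ (t + 1)) =
          (monomialsFam y θ t ∘
            fun ik : Fin (n1 + n2) × Fin (t + 1) =>
              ((ik.2, ik.1) : Fin (t + 1) × Fin (n1 + n2))) := by
        funext ik
        rfl
      rw [heq2]
      exact h2
  -- representation
  have exists_repr : ∀ f : F, ∃ (q : L[X]) (p : Fin (n1 + n2) → L[X]), q ≠ 0 ∧
      f * aeval y q = ∑ i, aeval y (p i) * θ i := by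
    intro f
    by_contra hcon
    refine hdeg (Fin.cons f θ) ?_
    intro p hp
    rw [Fin.sum_univ_succ] at hp
    simp only [Fin.cons_zero, Fin.cons_succ] at hp
    have hp0 : p 0 = 0 := by
      by_contra h0
      refine hcon ⟨p 0, fun i => - p i.succ, h0, ?_⟩
      simp only [map_neg, neg_mul, Finset.sum_neg_distrib]
      linear_combination hp
    rw [hp0, map_zero, zero_mul, zero_add] at hp
    have h2 := hθind (fun i => p i.succ) hp
    intro i
    exact Fin.cases hp0 h2 i
  exact ⟨θ, ⟨hy, θ_mem, exists_repr, red_indep, trans1, trans2⟩, hredl, hredr⟩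

/-- **N1 (abstract form).** -/
theorem hasOrthonormalBasesS_of_count (hA : RankOneDvd A) (hne : D1.O ≠ D2.O) {y : F}
    (hy : y ∈ supO D1 D2) {n1 n2 : ℕ} (hn1 : 0 < n1) (hn2 : 0 < n2)
    (θ1 : Fin n1 → F) (θ2 : Fin n2 → F)
    (hθ1 : ∀ i, θ1 i ∈ D1.O) (hθ2 : ∀ i, θ2 i ∈ D2.O)
    (hind1 : LinearIndependent k
      (fun m : ℕ × Fin n1 => D1.redF y ^ m.1 * D1.redF (θ1 m.2)))
    (hind2 : LinearIndependent k
      (fun m : ℕ × Fin n2 => D2.redF y ^ m.1 * D2.redF (θ2 m.2)))
    (hdeg : ∀ ω : Fin (n1 + n2 + 1) → F,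
      ¬ ∀ p : Fin (n1 + n2 + 1) → L[X], ∑ i, aeval y (p i) * ω i = 0 → ∀ i, p i = 0) :
    HasOrthonormalBasesS D1 D2 := by
  obtain ⟨θ, h, -, -⟩ :=
    exists_isFrameFamilyS hA hne hy hn1 hn2 θ1 θ2 hθ1 hθ2 hind1 hind2 hdeg
  exact h.hasOrthonormalBasesS

end Fermat.Agent.LSb.Frame
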