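/-
LSb / Frame / Inv  (helper2)

A sup-norm frame `(y, θ)` is also a sup-norm frame for `(y⁻¹, θ)` (same field `L(y) = L(y⁻¹)`,
`y` is a unit for both valuations because both reductions are transcendental).
Used for the chart at infinity: pole ORDER of `red_i f` at the poles of `red_i y`
(apply `Integral.lean` to `f · y^(-a)` and the frame `(y⁻¹, θ)`).
-/
import Fermat.Agent.LSb.Frame.Integral
import Fermat.Agent.S18lib.Weak.FrameInv

set_option autoImplicit false

noncomputable section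

namespace Fermat.Agent.LSb.Frame

open Fermat.Agent.S18lib Module Polynomial
open Fermat.Agent.S18lib.WFrame (aeval_inv_reflect_mul_pow)

variable {L : Type*} [Field L] {A : ValuationSubring L}
variable {F : Type*} [Field F] [Algebra L F]
variable {Fk1 : Type*} [Field Fk1] [Algebra (IsLocalRing.ResidueField A) Fk1]
variable {Fk2 : Type*} [Field Fk2] [Algebra (IsLocalRing.ResidueField A) Fk2]

local notation "k" => IsLocalRing.ResidueField A

variable {D1 : GaussDatum A F Fk1} {D2 : GaussDatum A F Fk2} {y : F} {n : ℕ} {θ : Fin n → F}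

/-- linear independence of `ȳ^(-a) θ̄_i` from that of `ȳ^a θ̄_i`, in a commutative `k`-algebra,
`ȳ` a unit -/
theorem linearIndependent_inv_pow_of_mul_eq_one {M : Type*} [CommRing M] [Algebra k M]
    {ybar yinv : M} (hy : ybar * yinv = 1) {θbar : Fin n → M}
    (h : LinearIndependent k (fun m : ℕ × Fin n => ybar ^ m.1 * θbar m.2)) :
    LinearIndependent k (fun m : ℕ × Fin n => yinv ^ m.1 * θbar m.2) := by
  classical
  rw [linearIndependent_iff]
  intro l hl
  set e : ℕ := l.support.sup Prod.fst with he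
  let φ : ℕ × Fin n → ℕ × Fin n := fun m => (e - m.1, m.2)
  have hle : ∀ m ∈ l.support, m.1 ≤ e := fun m hm => Finset.le_sup (f := Prod.fst) hm
  have hinj : Set.InjOn φ (l.support : Set (ℕ × Fin n)) := by
    intro m hm m' hm' hmm
    simp only [φ, Prod.mk.injEq] at hmm
    have h1 := hle m hm
    have h2 := hle m' hm'
    exact Prod.ext (by omega) hmm.2
  have h1 : Finsupp.linearCombination k (fun m : ℕ × Fin n => ybar ^ m.1 * θbar m.2)
      (Finsupp.mapDomain φ l) = 0 := by
    rw [Finsupp.linearCombination_mapDomain, Finsupp.linearCombination_apply, Finsupp.sum]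
    rw [Finsupp.linearCombination_apply, Finsupp.sum] at hl
    have h2 : ∀ m ∈ l.support, l m • ((fun m : ℕ × Fin n => ybar ^ m.1 * θbar m.2) ∘ φ) m
        = ybar ^ e * (l m • (yinv ^ m.1 * θbar m.2)) := by
      intro m hm
      have hm1 := hle m hm
      simp only [Function.comp_apply, φ]
      have : ybar ^ (e - m.1) = ybar ^ e * yinv ^ m.1 := by
        have h3 : ybar ^ e = ybar ^ (e - m.1) * ybar ^ m.1 := by
          rw [← pow_add, Nat.sub_add_cancel hm1]
        rw [h3, mul_assoc, ← mul_pow, hy, one_pow, mul_one]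
      rw [this, mul_smul_comm, mul_assoc]
    rw [Finset.sum_congr rfl h2, ← Finset.mul_sum, hl, mul_zero]
  have h2 := linearIndependent_iff.1 h _ h1
  have h3 : Finsupp.mapDomain φ l = Finsupp.mapDomain φ 0 := by rw [h2, Finsupp.mapDomain_zero]
  exact Finsupp.mapDomain_injOn _ hinj (by simp) (by simp) h3

theorem IsFrameFamilyS.redF_y_ne_zero (h : IsFrameFamilyS D1 D2 y θ) :
    D1.redF y ≠ 0 ∧ D2.redF y ≠ 0 := by
  constructor
  · intro h0
    have := transcendental_iff.1 h.trans1 X (by rw [aeval_X, h0])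
    exact X_ne_zero this
  · intro h0
    have := transcendental_iff.1 h.trans2 X (by rw [aeval_X, h0])
    exact X_ne_zero this

theorem IsFrameFamilyS.y_ne_zero (h : IsFrameFamilyS D1 D2 y θ) : y ≠ 0 := by
  rintro rfl
  exact h.redF_y_ne_zero.1 D1.redF_zero

/-- `y` is a unit of `O₁ ∩ O₂` -/
theorem IsFrameFamilyS.inv_mem (h : IsFrameFamilyS D1 D2 y θ) : y⁻¹ ∈ supO D1 D2 :=
  mem_supO.2 ⟨D1.inv_mem_of_redF_ne_zero h.redF_y_ne_zero.1,
    D2.inv_mem_of_redF_ne_zero h.redF_y_ne_zero.2⟩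

/-- a sup-norm frame for `y` is a sup-norm frame for `y⁻¹` -/
theorem IsFrameFamilyS.inv (h : IsFrameFamilyS D1 D2 y θ) : IsFrameFamilyS D1 D2 y⁻¹ θ where
  y_mem := h.inv_mem
  θ_mem := h.θ_mem
  exists_repr := by
    classical
    intro f
    obtain ⟨q, p, hq, hqp⟩ := h.exists_repr f
    have hy := h.y_ne_zero
    set N : ℕ := max q.natDegree (Finset.univ.sup fun i => (p i).natDegree) with hN
    have hqN : q.natDegree ≤ N := le_max_left _ _
    have hpN : ∀ i, (p i).natDegree ≤ N := fun i =>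
      le_trans (Finset.le_sup (f := fun i => (p i).natDegree) (Finset.mem_univ i))
        (le_max_right _ _)
    refine ⟨reflect N q, fun i => reflect N (p i), by simpa using hq, ?_⟩
    have hyN : y ^ N ≠ 0 := pow_ne_zero _ hy
    apply mul_right_cancel₀ hyN
    have e1 : f * aeval y⁻¹ (reflect N q) * y ^ N = f * aeval y q := by
      have := aeval_inv_reflect_mul_pow hy N q hqN
      rw [mul_assoc, this]
    have e2 : ∀ i, aeval y⁻¹ (reflect N (p i)) * θ i * y ^ N = aeval y (p i) * θ i := by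
      intro i
      have := aeval_inv_reflect_mul_pow hy N (p i) (hpN i)
      rw [mul_right_comm, this]
    rw [e1, hqp, Finset.sum_mul]
    exact Finset.sum_congr rfl fun i _ => (e2 i).symm
  red_indep := by
    have hmul : redS D1 D2 y * redS D1 D2 y⁻¹ = 1 := by
      rw [← redS_mul h.y_mem h.inv_mem, mul_inv_cancel₀ h.y_ne_zero, redS_one]
    exact linearIndependent_inv_pow_of_mul_eq_one (M := Fk1 × Fk2) (ybar := redS D1 D2 y)
      (yinv := redS D1 D2 y⁻¹) (θbar := fun i => redS D1 D2 (θ i)) hmul h.red_indep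
  trans1 := by
    rw [D1.redF_inv h.redF_y_ne_zero.1]
    intro halg
    exact h.trans1 (IsAlgebraic.inv_iff.1 halg)
  trans2 := by
    rw [D2.redF_inv h.redF_y_ne_zero.2]
    intro halg
    exact h.trans2 (IsAlgebraic.inv_iff.1 halg)

/-- **CHART, pole order part.**  If `f ∈ O₁ ∩ O₂` and `f · y^(-a)` lies in every valuation ring
of `F/L` containing `y⁻¹`, then `red_i f · (red_i y)^(-a)` lies in every valuation ring of
`Fk_i/k` containing `(red_i y)⁻¹`. -/
theorem IsFrameFamilyS.red_mul_inv_pow_mem_of_forall_mem (h : IsFrameFamilyS D1 D2 y θ) {f : F}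
    (hf : f ∈ supO D1 D2) (a : ℕ)
    (hreg : ∀ V : ValuationSubring F, (∀ c : L, algebraMap L F c ∈ V) → y⁻¹ ∈ V →
      f * y⁻¹ ^ a ∈ V) :
    (∀ V : ValuationSubring Fk1, (∀ c : k, algebraMap k Fk1 c ∈ V) → (D1.redF y)⁻¹ ∈ V →
      D1.redF f * (D1.redF y)⁻¹ ^ a ∈ V) ∧
    (∀ V : ValuationSubring Fk2, (∀ c : k, algebraMap k Fk2 c ∈ V) → (D2.redF y)⁻¹ ∈ V →
      D2.redF f * (D2.redF y)⁻¹ ^ a ∈ V) := by
  have hg : f * y⁻¹ ^ a ∈ supO D1 D2 :=
    (supO D1 D2).mul_mem hf ((supO D1 D2).pow_mem h.inv_mem a)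
  have key := h.inv.red_mem_of_forall_mem hg hreg
  have hf' := mem_supO.1 hf
  have hi := mem_supO.1 h.inv_mem
  have e1 : D1.redF (f * y⁻¹ ^ a) = D1.redF f * (D1.redF y)⁻¹ ^ a := by
    rw [D1.redF_mul hf'.1 (D1.O.pow_mem hi.1 a), D1.redF_pow hi.1,
      D1.redF_inv h.redF_y_ne_zero.1]
  have e2 : D2.redF (f * y⁻¹ ^ a) = D2.redF f * (D2.redF y)⁻¹ ^ a := by
    rw [D2.redF_mul hf'.2 (D2.O.pow_mem hi.2 a), D2.redF_pow hi.2,
      D2.redF_inv h.redF_y_ne_zero.2]
  rw [D1.redF_inv h.redF_y_ne_zero.1, D2.redF_inv h.redF_y_ne_zero.2, e1, e2] at key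
  exact key

end Fermat.Agent.LSb.Frame
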