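/-
LSb / Frame / Modular  (helper2)

**N1 for the modular pair.**  `D1 D2 : GaussDatum A (FBar (M * q)) (FRes A M)` the two Gauss data of
level `M q` over `q` (`q ∤ M`), characterised by helper7's `Old.IsGaussOne D1` (coefficientwise
reduction of integral `t`-expansions) and `Old.IsGaussTwo D1 D2 wq` (`D2 = D1 ∘ wq`,
`wq ∘ alpha = beta`), `wq` an involution.  Then

* `D1.O ≠ D2.O` (`u = j(t^q) - j^q` is in `𝔪₁` and is a unit for `D2`);
* the sup-norm `max(|·|₁,|·|₂)` has orthonormal bases: `HasOrthonormalBasesS D1 D2`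
  (the frame: `ψ(M)` level-`M` monomials `θ_i` for `D1`, the `q ψ(M)` functions
  `(j^b θ_i)(t^q)`, `b < q`, for `D2`; count `ψ(M) + q ψ(M) = ψ(M q) = [F : Q̄(j)]`).
-/
import Fermat.Agent.LSb.Frame.Inv
import Fermat.Agent.LSb.Frame.Build
import Fermat.Agent.LSb.Old.Lift
import Fermat.Agent.S18lib.V.GaussU.Frame
import Fermat.Agent.S18lib.Asm.RankOne
import Fermat.Agent.ProgramR.BarField.Degree
import Fermat.Agent.ProgramR.Counting.Psi

set_option autoImplicit false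
set_option linter.unusedSectionVars false

noncomputable section

namespace Fermat.Agent.LSb.Frame

open AlgebraicCurve ModularCurve Polynomial Fermat.Agent.S18lib Fermat.Agent.LSb.Old

local notation "Qb" => AlgebraicClosure ℚ

variable {M q : ℕ} [NeZero M] [NeZero q] [hq : Fact q.Prime]
variable {A : ValuationSubring (AlgebraicClosure ℚ)}

local notation "kA" => IsLocalRing.ResidueField A

variable {D1 D2 : GaussDatum A (FBar (M * q)) (FRes A M)} {wq : FBar (M * q) →+* FBar (M * q)}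

/-- `Vq j̄ = j̄ ^ q` -/
theorem Vq_jRes (hA : A.LiesOverPrime q) : Vq M q A hA (V.jRes M A) = V.jRes M A ^ q := by
  have := charP_kRes (q := q) hA
  apply Subtype.ext
  rw [coe_Vq, SubmonoidClass.coe_pow, V.coe_jRes, S37lib.ConjNorm.pow_char_eq_qExpand q,
    coeffMap_jqModC]

section

theorem wq_beta_of_invol (h2 : IsGaussTwo D1 D2 wq) (hwq : ∀ x, wq (wq x) = x) (f : FBar M) :
    wq (beta M q f) = alpha M q f := by
  rw [← h2.wq_alpha, hwq]

/-- `D2` along `beta` is the level-`M` Gauss datum -/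
theorem beta_mem_iff₂ (hqM : ¬ q ∣ M) (hA : A.LiesOverPrime q) (h1 : IsGaussOne D1) (h2 : IsGaussTwo D1 D2 wq)
    (hwq : ∀ x, wq (wq x) = x) (f : FBar M) :
    beta M q f ∈ D2.O ↔ f ∈ (V.gaussDatum M A hqM hA).O := by
  rw [h2.mem_iff, wq_beta_of_invol h2 hwq, alpha_mem_iff hqM hA h1]

theorem redF_beta₂ (hqM : ¬ q ∣ M) (hA : A.LiesOverPrime q) (h1 : IsGaussOne D1) (h2 : IsGaussTwo D1 D2 wq)
    (hwq : ∀ x, wq (wq x) = x) (f : FBar M) :
    D2.redF (beta M q f) = (V.gaussDatum M A hqM hA).redF f := by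
  rw [h2.redF, wq_beta_of_invol h2 hwq, redF_alpha hqM hA h1]

/-- the level-`M` frame -/
theorem frameM (hqM : ¬ q ∣ M) (hA : A.LiesOverPrime q) : WFrame.IsFrameFamily (V.gaussDatum M A hqM hA) (Gin0.jF M)
    (fun i => V.elemL (V.frameTheta M q A hqM i)) :=
  V.gaussDatum_isFrameFamily M A hqM hA

theorem redF_jF (hqM : ¬ q ∣ M) (hA : A.LiesOverPrime q) :
    (V.gaussDatum M A hqM hA).redF (Gin0.jF M) = V.jRes M A :=
  V.gaussDatum_redF_jBar M A hqM hA

/-- `j̄` is transcendental -/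
theorem transcendental_jRes (hqM : ¬ q ∣ M) (hA : A.LiesOverPrime q) :
    Transcendental kA (V.jRes M A) := by
  have h := frameM (M := M) (q := q) hqM hA
  have hind := h.red_indep
  rw [redF_jF hqM hA] at hind
  exact transcendental_of_linearIndependent (A := A) h.n_pos (V.jRes M A)
    (fun i => (V.gaussDatum M A hqM hA).redF (V.elemL (V.frameTheta M q A hqM i))) hind

/-- **the two Gauss valuations of level `M q` are different** -/
theorem O_ne (hqM : ¬ q ∣ M) (hA : A.LiesOverPrime q) (h1 : IsGaussOne D1) (h2 : IsGaussTwo D1 D2 wq) (hwq : ∀ x, wq (wq x) = x) :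
    D1.O ≠ D2.O := by
  intro heq
  have hfr := frameM (M := M) (q := q) hqM hA
  set jM := Gin0.jF M with hjM
  have hjO : jM ∈ (V.gaussDatum M A hqM hA).O := hfr.y_mem
  -- `u = β j - (α j)^q`
  set u : FBar (M * q) := beta M q jM - (alpha M q jM) ^ q with hu
  have ha1 : alpha M q jM ∈ D1.O := (alpha_mem_iff hqM hA h1 jM).2 hjO
  have hb1 : beta M q jM ∈ D1.O := (beta_mem_iff hqM hA h1 jM).2 hjO
  have ha2 : alpha M q jM ∈ D2.O := (alpha_mem_iff₂ hqM hA h1 h2 jM).2 hjO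
  have hb2 : beta M q jM ∈ D2.O := (beta_mem_iff₂ hqM hA h1 h2 hwq jM).2 hjO
  have hu1 : D1.redF u = 0 := by
    rw [hu, D1.redF_sub hb1 (D1.O.pow_mem ha1 q), D1.redF_pow ha1, redF_beta hqM hA h1,
      redF_alpha hqM hA h1, redF_jF hqM hA, Vq_jRes hA, sub_self]
  have hu2 : D2.redF u = V.jRes M A - (V.jRes M A ^ q) ^ q := by
    rw [hu, D2.redF_sub hb2 (D2.O.pow_mem ha2 q), D2.redF_pow ha2, redF_beta₂ hqM hA h1 h2 hwq,
      redF_alpha₂ hqM hA h1 h2, redF_jF hqM hA, Vq_jRes hA]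
  have hu2ne : D2.redF u ≠ 0 := by
    rw [hu2]
    intro h0
    have htr := transcendental_jRes (M := M) (q := q) (A := A) hqM hA
    have hp : aeval (V.jRes M A) ((X : kA[X]) - (X ^ q) ^ q) = 0 := by
      simpa using h0
    have := transcendental_iff.1 htr _ hp
    have hc : ((X : kA[X]) - (X ^ q) ^ q).coeff 1 = 1 := by
      rw [← pow_mul, coeff_sub, coeff_X_one, coeff_X_pow, if_neg, sub_zero]
      have := hq.out.two_le
      nlinarith
    rw [this, coeff_zero] at hc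
    exact zero_ne_one hc
  -- `u⁻¹ ∈ D2.O = D1.O`, but `u ∈ 𝔪₁`
  have hui2 : u⁻¹ ∈ D2.O := D2.inv_mem_of_redF_ne_zero hu2ne
  have hui1 : u⁻¹ ∈ D1.O := by rw [heq]; exact hui2
  have hu0 : u ≠ 0 := by
    intro h0
    rw [h0] at hu2ne
    exact hu2ne D2.redF_zero
  have huO1 : u ∈ D1.O := D1.O.sub_mem hb1 (D1.O.pow_mem ha1 q)
  have := D1.redF_mul huO1 hui1
  rw [mul_inv_cancel₀ hu0, D1.redF_one, hu1, zero_mul] at this
  exact one_ne_zero this

/-- index bookkeeping for the second family: `(a, l) ↦ (q a + b(l), i(l))` -/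
def idx₂ (q ψ : ℕ) (m : ℕ × Fin (q * ψ)) : ℕ × Fin ψ :=
  (q * m.1 + ((finProdFinEquiv.symm m.2).1 : ℕ), (finProdFinEquiv.symm m.2).2)

theorem idx₂_injective (q ψ : ℕ) : Function.Injective (idx₂ q ψ) := by
  rintro ⟨a, l⟩ ⟨a', l'⟩ h
  simp only [idx₂, Prod.mk.injEq] at h
  obtain ⟨h1, h2⟩ := h
  have hb := (finProdFinEquiv.symm l).1.2
  have hb' := (finProdFinEquiv.symm l').1.2
  have hq0 : 0 < q := by omega
  have ha : a = a' := by
    have e1 : (q * a + ((finProdFinEquiv.symm l).1 : ℕ)) / q = a := by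
      rw [Nat.mul_add_div hq0, Nat.div_eq_of_lt hb, add_zero]
    have e2 : (q * a' + ((finProdFinEquiv.symm l').1 : ℕ)) / q = a' := by
      rw [Nat.mul_add_div hq0, Nat.div_eq_of_lt hb', add_zero]
    rw [← e1, ← e2, h1]
  subst ha
  have hb1 : (finProdFinEquiv.symm l).1 = (finProdFinEquiv.symm l').1 :=
    Fin.ext (Nat.add_left_cancel h1)
  have : finProdFinEquiv.symm l = finProdFinEquiv.symm l' := Prod.ext hb1 h2
  rw [finProdFinEquiv.symm.injective this]

/-- **the sup-norm frame of the modular pair**, `y = j`. -/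
theorem modular_exists_isFrameFamilyS (hqM : ¬ q ∣ M) (hA : A.LiesOverPrime q)
    (h1 : IsGaussOne D1) (h2 : IsGaussTwo D1 D2 wq)
    (hwq : ∀ x, wq (wq x) = x) :
    ∃ θ : Fin (dedekindPsi M + q * dedekindPsi M) → FBar (M * q),
      IsFrameFamilyS D1 D2 (Gin0.jF (M * q)) θ := by
  classical
  have hfr := frameM (M := M) (q := q) hqM hA
  set G := V.gaussDatum M A hqM hA with hG
  set jM := Gin0.jF M with hjM
  set ψ := dedekindPsi M with hψ
  set θ : Fin ψ → FBar M := fun i => V.elemL (V.frameTheta M q A hqM i) with hθ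
  have hjO : jM ∈ G.O := hfr.y_mem
  have hψpos : 0 < ψ := hfr.n_pos
  have hq0 : 0 < q := hq.out.pos
  have hrank : RankOneDvd A := rankOne_of_liesOverPrime A hA
  have hne := O_ne hqM hA h1 h2 hwq
  -- `y = j`
  have hy : Gin0.jF (M * q) = alpha M q jM := (alpha_jF (M := M) (q := q)).symm
  have hy1 : Gin0.jF (M * q) ∈ D1.O := by
    rw [hy]; exact (alpha_mem_iff hqM hA h1 jM).2 hjO
  have hy2 : Gin0.jF (M * q) ∈ D2.O := by
    rw [hy]; exact (alpha_mem_iff₂ hqM hA h1 h2 jM).2 hjO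
  have hred1 : D1.redF (Gin0.jF (M * q)) = V.jRes M A := by
    rw [hy, redF_alpha hqM hA h1, redF_jF hqM hA]
  have hred2 : D2.redF (Gin0.jF (M * q)) = V.jRes M A ^ q := by
    rw [hy, redF_alpha₂ hqM hA h1 h2, redF_jF hqM hA, Vq_jRes hA]
  have hind : LinearIndependent kA
      (fun m : ℕ × Fin ψ => V.jRes M A ^ m.1 * G.redF (θ m.2)) := by
    have := hfr.red_indep
    rwa [redF_jF hqM hA] at this
  -- first family
  let θ1 : Fin ψ → FBar (M * q) := fun i => alpha M q (θ i)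
  have hθ1 : ∀ i, θ1 i ∈ D1.O := fun i => (alpha_mem_iff hqM hA h1 (θ i)).2 (hfr.θ_mem i)
  have hind1 : LinearIndependent kA
      (fun m : ℕ × Fin ψ => D1.redF (Gin0.jF (M * q)) ^ m.1 * D1.redF (θ1 m.2)) := by
    have : (fun m : ℕ × Fin ψ => D1.redF (Gin0.jF (M * q)) ^ m.1 * D1.redF (θ1 m.2))
        = fun m : ℕ × Fin ψ => V.jRes M A ^ m.1 * G.redF (θ m.2) := by
      funext m
      rw [hred1, redF_alpha hqM hA h1]
    rw [this]
    exact hind
  -- second family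
  let f2 : Fin (q * ψ) → FBar M := fun l =>
    jM ^ ((finProdFinEquiv.symm l).1 : ℕ) * θ (finProdFinEquiv.symm l).2
  have hf2 : ∀ l, f2 l ∈ G.O := fun l =>
    G.O.mul_mem _ _ (G.O.pow_mem hjO _) (hfr.θ_mem _)
  let θ2 : Fin (q * ψ) → FBar (M * q) := fun l => beta M q (f2 l)
  have hθ2 : ∀ l, θ2 l ∈ D2.O := fun l => (beta_mem_iff₂ hqM hA h1 h2 hwq (f2 l)).2 (hf2 l)
  have hind2 : LinearIndependent kA
      (fun m : ℕ × Fin (q * ψ) => D2.redF (Gin0.jF (M * q)) ^ m.1 * D2.redF (θ2 m.2)) := by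
    have : (fun m : ℕ × Fin (q * ψ) => D2.redF (Gin0.jF (M * q)) ^ m.1 * D2.redF (θ2 m.2))
        = (fun m : ℕ × Fin ψ => V.jRes M A ^ m.1 * G.redF (θ m.2)) ∘ idx₂ q ψ := by
      funext m
      simp only [Function.comp_apply, idx₂]
      rw [hred2, redF_beta₂ hqM hA h1 h2 hwq,
        G.redF_mul (G.O.pow_mem hjO _) (hfr.θ_mem _), G.redF_pow hjO, redF_jF hqM hA,
        ← pow_mul, pow_add, mul_assoc]
    rw [this]
    exact hind.comp _ (idx₂_injective q ψ)
  -- the degree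
  have hdeg : ∀ ω : Fin (ψ + q * ψ + 1) → FBar (M * q),
      ¬ ∀ p : Fin (ψ + q * ψ + 1) → Qb[X],
        ∑ i, aeval (Gin0.jF (M * q)) (p i) * ω i = 0 → ∀ i, p i = 0 := by
    intro ω hω
    have h := Fermat.Agent.ProgramR.BarField.card_le_of_poly_independent (M * q)
      Fermat.Agent.ProgramR.BarField.qbarEmb ω hω
    rw [Fermat.Agent.ProgramR.dedekindPsi_mul_prime_of_not_dvd (NeZero.ne M) hq.out hqM,
      add_mul, one_mul, ← hψ] at h
    omega
  obtain ⟨θ', hθ', -, -⟩ := exists_isFrameFamilyS hrank hne (mem_supO.2 ⟨hy1, hy2⟩) hψpos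
    (Nat.mul_pos hq0 hψpos) θ1 θ2 hθ1 hθ2 hind1 hind2 hdeg
  exact ⟨θ', hθ'⟩

/-- **N1 for the modular pair**: the sup-norm of the two Gauss valuations of level `M q` has
orthonormal bases. -/
theorem modular_hasOrthonormalBasesS (hqM : ¬ q ∣ M) (hA : A.LiesOverPrime q)
    (h1 : IsGaussOne D1) (h2 : IsGaussTwo D1 D2 wq)
    (hwq : ∀ x, wq (wq x) = x) : HasOrthonormalBasesS D1 D2 := by
  obtain ⟨θ, hθ⟩ := modular_exists_isFrameFamilyS hqM hA h1 h2 hwq
  exact hθ.hasOrthonormalBasesS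

/-- reductions of `j`: `red₁ j = j̄`, `red₂ j = j̄ ^ q` -/
theorem modular_redF_jF (hqM : ¬ q ∣ M) (hA : A.LiesOverPrime q)
    (h1 : IsGaussOne D1) (h2 : IsGaussTwo D1 D2 wq) :
    D1.redF (Gin0.jF (M * q)) = V.jRes M A ∧ D2.redF (Gin0.jF (M * q)) = V.jRes M A ^ q := by
  have hy : Gin0.jF (M * q) = alpha M q (Gin0.jF M) := (alpha_jF (M := M) (q := q)).symm
  constructor
  · rw [hy, redF_alpha hqM hA h1, redF_jF hqM hA]
  · rw [hy, redF_alpha₂ hqM hA h1 h2, redF_jF hqM hA, Vq_jRes hA]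

end

end Fermat.Agent.LSb.Frame
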